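import Fermat.Agent.S56.H716.TBDefs

/-!
# Row S56 — wall W-FLAT-SS (flat tangent bound, `ρ̄|_{D_p}` irreducible): FROZEN interface
(sub-architect helper426; blueprint `coord/S56-FLATSS-helper426.md` on `origin/helper426`)

`FlatSSStatement ⇐ LocalModelStatement + RamCountStatement`   (glue: `FL/Glue.lean`)

* `FlatSSStatement` — any two flat tangent cocycles are `k`-linearly dependent modulo coboundaries
  on the decomposition group `D_P`, `P ∣ p`, when `ρ̄|_{D_P}` is irreducible.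
* `LocalModelStatement` (`ℚ̄`-side; uses flatness): the field `L` cut out over the decomposition
  field by `V'₁ ⊕ V'₂` has a finite-level model `(A ⊂ B, Γ = Gal)`, `A = P ∩ ℚ̄^{D}`, `B = P ∩ L`,
  and `B/A` satisfies the different bound of Theorem D:
  `𝔇_{B/A} ∣ (p) · 𝔪_B^{k-1}` for `p ∤ k`, `k < e`, `e < k (p - 1)`.
* `RamCountStatement` (pure algebra, Mathlib only; ramification filtration count): a discrete
  valuation ring `B` with Galois group `Γ` over an unramified base `A`, satisfying the different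
  bound, carries at most a line of classes of the relevant kind.
* `DiffCoreStatement` (pure algebra, Mathlib only; input of `LocalModelStatement`): if
  `A[X]/(G) ≅ A[X]/(G + pX^k)` for an Eisenstein polynomial `G`, then `v(G'(π)) ≤ v(p) + k - 1`.

Nothing unproved in this file.
-/

set_option autoImplicit false

open Polynomial IsLocalRing

noncomputable section

namespace Fermat.Agent.S56.FL

open Fermat.Agent.S56 Fermat.Agent.S56.H716

/-- **W-FLAT-SS, top statement.**  In the supersingular case (`ρ̄|_{D_P}` irreducible) any two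
flat tangent cocycles are linearly dependent modulo coboundaries on `D_P`. -/
def FlatSSStatement : Prop :=
  ∀ (k : Type) [Field k] [Finite k] (p : ℕ) [Fact p.Prime], p ≠ 2 → CharP k p →
    ∀ (ρbar : ResidualGaloisRep k),
      (∀ (σ : GQ) (a : ℕ), IsCycExp p σ a → LinearMap.det (ρbar.ρ σ) = (a : k)) →
      (∀ σ : GQ, ∃ α β : k, LinearMap.charpoly (ρbar.ρ σ) = (X - C α) * (X - C β)) →
      ∀ (P : ValuationSubring Qb), P.LiesOverPrime p →
        (∀ U : Submodule k ρbar.V,
          (∀ σ ∈ P.decompositionSubgroup ℚ, ∀ x ∈ U, ρbar.ρ σ x ∈ U) → U = ⊥ ∨ U = ⊤) →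
        ∀ (c₁ c₂ : GQ → Module.End k ρbar.V), IsAdCocycle ρbar c₁ → IsAdCocycle ρbar c₂ →
          ∀ (ρ₁ ρ₂ : GaloisRepAdic (DualNumber k)), IsLiftOf ρbar c₁ ρ₁ → IsLiftOf ρbar c₂ ρ₂ →
            ρ₁.IsFlatAt p → ρ₂.IsFlatAt p →
            ∃ a₁ a₂ : k, (a₁ ≠ 0 ∨ a₂ ≠ 0) ∧ ∃ m : Module.End k ρbar.V,
              ∀ σ ∈ P.decompositionSubgroup ℚ,
                a₁ • c₁ σ + a₂ • c₂ σ = ρbar.ρ σ * m * ρbar.ρ σ⁻¹ - m

/-- **RAMCOUNT** (pure algebra).  `A ⊂ B` discrete valuation rings of characteristic `0`,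
`A` with uniformizer `p` and residue field `𝔽_p`, `B/A` Galois with group `Γ`, satisfying the
different bound of Theorem D.  `ρ : Γ → GL(V)` an irreducible 2-dimensional representation over a
finite field `k` of characteristic `p` with eigenvalues in `k` and cyclotomic determinant,
`c₁, c₂` trace-zero `Ad ρ`-cocycles such that `(ρ, c₁, c₂)` is faithful.  Then `c₁, c₂` are linearly
dependent modulo coboundaries. -/
def RamCountStatement : Prop :=
  ∀ (p : ℕ) [Fact p.Prime], p ≠ 2 →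
    ∀ (A B : Type) [CommRing A] [IsDomain A] [IsDiscreteValuationRing A]
      [CommRing B] [IsDomain B] [IsDiscreteValuationRing B] [CharZero B]
      [Algebra A B] [Module.Finite A B] [FaithfulSMul A B]
      (Γ : Type) [Group Γ] [Finite Γ] [MulSemiringAction Γ B] [SMulCommClass Γ A B]
      [Algebra.IsInvariant A B Γ] [FaithfulSMul Γ B],
      maximalIdeal A = Ideal.span {(p : A)} →
      Nat.card (ResidueField A) = p →
      ∀ e : ℕ, Ideal.span {(p : B)} = maximalIdeal B ^ e →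
      (∀ j : ℕ, ¬ p ∣ j → j < e → e < j * (p - 1) →
        differentIdeal A B ∣ Ideal.span {(p : B)} * maximalIdeal B ^ (j - 1)) →
      ∀ (k : Type) [Field k] [Finite k], CharP k p →
      ∀ (V : Type) [AddCommGroup V] [Module k V] [Module.Finite k V], Module.finrank k V = 2 →
      ∀ (ρ : Γ →* Module.End k V),
        (∀ U : Submodule k V, (∀ (σ : Γ), ∀ x ∈ U, ρ σ x ∈ U) → U = ⊥ ∨ U = ⊤) →
        (∀ σ : Γ, ∃ α β : k, LinearMap.charpoly (ρ σ) = (X - C α) * (X - C β)) →
        ∀ ζ : B, IsPrimitiveRoot ζ p →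
        (∀ (σ : Γ) (a : ℕ), σ • ζ = ζ ^ a → LinearMap.det (ρ σ) = (a : k)) →
        ∀ (c₁ c₂ : Γ → Module.End k V),
          (∀ σ τ, c₁ (σ * τ) = c₁ σ + ρ σ * c₁ τ * ρ σ⁻¹) →
          (∀ σ τ, c₂ (σ * τ) = c₂ σ + ρ σ * c₂ τ * ρ σ⁻¹) →
          (∀ σ, LinearMap.trace k V (c₁ σ) = 0) →
          (∀ σ, LinearMap.trace k V (c₂ σ) = 0) →
          (∀ σ, ρ σ = 1 → c₁ σ = 0 → c₂ σ = 0 → σ = 1) →
          ∃ a₁ a₂ : k, (a₁ ≠ 0 ∨ a₂ ≠ 0) ∧ ∃ m : Module.End k V,
            ∀ σ, a₁ • c₁ σ + a₂ • c₂ σ = ρ σ * m * ρ σ⁻¹ - m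

/-- **LOCALMODEL** (`ℚ̄`-side, the only place where flatness is used).  For two flat lifts
`ρ₁, ρ₂` of `ρ̄` to the dual numbers with cocycles `c₁, c₂`, the finite quotient `Γ` of `D_P` through
which `(ρ̄, c₁, c₂)` factors is the Galois group of an extension `B/A` of discrete valuation rings
(`A = P ∩ ℚ̄^{D_P}` unramified over `ℤ_(p)`, `B = P ∩ L`) which satisfies the different bound. -/
def LocalModelStatement : Prop :=
  ∀ (k : Type) [Field k] [Finite k] (p : ℕ) [Fact p.Prime], p ≠ 2 → CharP k p →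
    ∀ (ρbar : ResidualGaloisRep k),
      (∀ (σ : GQ) (a : ℕ), IsCycExp p σ a → LinearMap.det (ρbar.ρ σ) = (a : k)) →
      ∀ (P : ValuationSubring Qb), P.LiesOverPrime p →
        ∀ (c₁ c₂ : GQ → Module.End k ρbar.V), IsAdCocycle ρbar c₁ → IsAdCocycle ρbar c₂ →
          ∀ (ρ₁ ρ₂ : GaloisRepAdic (DualNumber k)), IsLiftOf ρbar c₁ ρ₁ → IsLiftOf ρbar c₂ ρ₂ →
            ρ₁.IsFlatAt p → ρ₂.IsFlatAt p →
            ∃ (A B : Type) (_ : CommRing A) (_ : IsDomain A) (_ : IsDiscreteValuationRing A)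
              (_ : CommRing B) (_ : IsDomain B) (_ : IsDiscreteValuationRing B) (_ : CharZero B)
              (_ : Algebra A B) (_ : Module.Finite A B) (_ : FaithfulSMul A B)
              (Γ : Type) (_ : Group Γ) (_ : Finite Γ) (_ : MulSemiringAction Γ B)
              (_ : SMulCommClass Γ A B) (_ : Algebra.IsInvariant A B Γ) (_ : FaithfulSMul Γ B)
              (π : P.decompositionSubgroup ℚ →* Γ) (ζ : B) (e : ℕ),
              Function.Surjective π ∧
              (∀ σ : P.decompositionSubgroup ℚ,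
                π σ = 1 ↔ (ρbar.ρ (σ : GQ) = 1 ∧ c₁ (σ : GQ) = 0 ∧ c₂ (σ : GQ) = 0)) ∧
              maximalIdeal A = Ideal.span {(p : A)} ∧
              Nat.card (ResidueField A) = p ∧
              IsPrimitiveRoot ζ p ∧
              (∀ (σ : P.decompositionSubgroup ℚ) (a : ℕ),
                π σ • ζ = ζ ^ a → IsCycExp p (σ : GQ) a) ∧
              Ideal.span {(p : B)} = maximalIdeal B ^ e ∧
              ∀ j : ℕ, ¬ p ∣ j → j < e → e < j * (p - 1) →
                differentIdeal A B ∣ Ideal.span {(p : B)} * maximalIdeal B ^ (j - 1)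

/-- **DCORE** (pure algebra; Theorem D, step "different comparison").  `A` a discrete valuation
ring of characteristic `0` with `(p) = 𝔪_A ^ a`, `a > 0`, `G` an Eisenstein polynomial of degree `e`,
`0 < j < e`, `p ∤ j`.  If `A[X]/(G)` and `A[X]/(G + p X^j)` are isomorphic `A`-algebras, then
`G'(π)` divides `π ^ (e a + j - 1)` in `A[X]/(G)`. -/
def DiffCoreStatement : Prop :=
  ∀ (p : ℕ) [Fact p.Prime] (A : Type) [CommRing A] [IsDomain A] [IsDiscreteValuationRing A]
    [CharZero A] (a : ℕ), 0 < a → Ideal.span {(p : A)} = maximalIdeal A ^ a →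
    ∀ (G : A[X]) (e j : ℕ), G.Monic → G.natDegree = e → G.IsEisensteinAt (maximalIdeal A) →
      ¬ p ∣ j → 0 < j → j < e →
      Nonempty (AdjoinRoot G ≃ₐ[A] AdjoinRoot (G + C (p : A) * X ^ j)) →
      aeval (AdjoinRoot.root G) (derivative G) ∣ (AdjoinRoot.root G) ^ (e * a + j - 1)

end Fermat.Agent.S56.FL

end
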