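import Fermat.Agent.S56.H716.SBSpec
import Fermat.Agent.S56.FL.Spec

/-!
# Row S56 — leaf LOC-FLAT of TB layer 2: `LocFlatPStatement ⇐ FlatSS + FlatO` (helper426)

* `FlatOStatement` (FLAT-O, ordinary case): `H716.LocFlatPStatement` under the extra hypothesis
  that `ρ̄|_{D_P}` is reducible (there is a `D_P`-stable line).  Sub-architects helper66 / helper6.
* `FlatSSStatement` (W-FLAT-SS, supersingular case): `FL/Spec.lean`.
* `locFlatP_of : FlatSSStatement → FlatOStatement → H716.LocFlatPStatement`  — PROVED here.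

Sorry-free.
-/

set_option autoImplicit false

open Polynomial IsLocalRing

noncomputable section

namespace Fermat.Agent.S56.FL

open Fermat.Agent.S56 Fermat.Agent.S56.H716

/-- **FLAT-O**: the flat local tangent bound at `p` when `ρ̄|_{D_P}` is reducible. -/
def FlatOStatement : Prop :=
  ∀ (𝒪 : Type) [CommRing 𝒪] [IsDomain 𝒪] [IsDiscreteValuationRing 𝒪]
    [IsAdicComplete (maximalIdeal 𝒪) 𝒪] [Finite (ResidueField 𝒪)]
    (p : ℕ) (ρbar : ResidualGaloisRep (ResidueField 𝒪)) (S Smin : Finset ℕ),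
    Hyp 𝒪 p ρbar S Smin →
      ∀ P : ValuationSubring Qb, P.LiesOverPrime p →
        (∃ U : Submodule (ResidueField 𝒪) ρbar.V, U ≠ ⊥ ∧ U ≠ ⊤ ∧
          ∀ σ ∈ P.decompositionSubgroup ℚ, ∀ x ∈ U, ρbar.ρ σ x ∈ U) →
        LocalBoundAt ρbar P (fun ρ' => ρ'.DetIsCyclotomic p ∧ ρ'.IsFlatAt p) 1

/-- `DetIsCyclotomic` in the `IsCycExp` form. -/
theorem det_eq_natCast_of_isCycExp {k : Type} [Field k] {p : ℕ} {ρbar : ResidualGaloisRep k}
    (hdet : (GaloisRepAdic.ofResidualGaloisRep ρbar).DetIsCyclotomic p) {σ : GQ} {a : ℕ}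
    (h : IsCycExp p σ a) : LinearMap.det (ρbar.ρ σ) = (a : k) := by
  have hp0 : (p : k) = 0 := by
    have h := hdet.1
    rwa [IsLocalRing.maximalIdeal_eq_bot, Ideal.mem_bot] at h
  have h1 := hdet.2 1 σ a (fun μ hμ => h μ (by simpa using hμ))
  have h0 : ((p ^ 1 : ℕ) : k) = 0 := by simpa using hp0
  rw [h0, Ideal.mem_span_singleton, zero_dvd_iff, sub_eq_zero] at h1
  exact h1

/-- LOC-FLAT from the supersingular and the ordinary case. -/
theorem locFlatP_of (hSS : FlatSSStatement) (hO : FlatOStatement) : LocFlatPStatement := by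
  intro 𝒪 _ _ _ _ _ p ρbar S Smin H P hP
  by_cases hred : ∃ U : Submodule (ResidueField 𝒪) ρbar.V, U ≠ ⊥ ∧ U ≠ ⊤ ∧
      ∀ σ ∈ P.decompositionSubgroup ℚ, ∀ x ∈ U, ρbar.ρ σ x ∈ U
  · exact hO 𝒪 p ρbar S Smin H P hP hred
  -- supersingular case
  have hirr : ∀ U : Submodule (ResidueField 𝒪) ρbar.V,
      (∀ σ ∈ P.decompositionSubgroup ℚ, ∀ x ∈ U, ρbar.ρ σ x ∈ U) → U = ⊥ ∨ U = ⊤ := by
    intro U hU
    by_contra hcon
    rw [not_or] at hcon
    exact hred ⟨U, hcon.1, hcon.2, hU⟩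
  have : Fact p.Prime := ⟨H.hp⟩
  have hp0 : (p : ResidueField 𝒪) = 0 := by
    have h := H.hdet.1
    rwa [IsLocalRing.maximalIdeal_eq_bot, Ideal.mem_bot] at h
  have hchar : CharP (ResidueField 𝒪) p := (CharP.charP_iff_prime_eq_zero H.hp).2 hp0
  have hdet : ∀ (σ : GQ) (a : ℕ), IsCycExp p σ a →
      LinearMap.det (ρbar.ρ σ) = (a : ResidueField 𝒪) :=
    fun σ a h => det_eq_natCast_of_isCycExp H.hdet h
  set D := P.decompositionSubgroup ℚ with hDdef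
  set Ty : GaloisRepAdic (DualNumber (ResidueField 𝒪)) → Prop :=
    fun ρ' => ρ'.DetIsCyclotomic p ∧ ρ'.IsFlatAt p with hTy
  by_cases hex : ∃ c₀ : GQ → Module.End (ResidueField 𝒪) ρbar.V, IsAdCocycle ρbar c₀ ∧
      (∃ ρ' : GaloisRepAdic (DualNumber (ResidueField 𝒪)), IsLiftOf ρbar c₀ ρ' ∧ Ty ρ') ∧
      ¬ IsAdCoboundaryOn ρbar D c₀
  · obtain ⟨c₀, hc₀, ⟨ρ₀, hl₀, hT₀⟩, hnc⟩ := hex
    refine ⟨Submodule.span (ResidueField 𝒪) {c₀}, inferInstance, ?_, ?_⟩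
    · refine le_trans (finrank_span_le_card ({c₀} : Set _)) ?_
      simp
    · intro c hc ⟨ρ', hl, hT⟩
      obtain ⟨a₁, a₂, ha, m, hm⟩ := hSS (ResidueField 𝒪) p H.hp2 hchar ρbar hdet H.hsplit P hP
        hirr c₀ c hc₀ hc ρ₀ ρ' hl₀ hl hT₀.2 hT.2
      have ha₂ : a₂ ≠ 0 := by
        intro h0
        have ha₁ : a₁ ≠ 0 := by
          rcases ha with h | h
          · exact h
          · exact absurd h0 h
        apply hnc
        refine ⟨a₁⁻¹ • m, fun σ hσ => ?_⟩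
        have := hm σ hσ
        rw [h0, zero_smul, add_zero] at this
        calc c₀ σ = a₁⁻¹ • (a₁ • c₀ σ) := by rw [smul_smul, inv_mul_cancel₀ ha₁, one_smul]
          _ = a₁⁻¹ • (ρbar.ρ σ * m * ρbar.ρ σ⁻¹ - m) := by rw [this]
          _ = ρbar.ρ σ * (a₁⁻¹ • m) * ρbar.ρ σ⁻¹ - a₁⁻¹ • m := by
            rw [smul_sub, mul_smul_comm, smul_mul_assoc]
      refine ⟨(-(a₂⁻¹ * a₁)) • c₀, Submodule.smul_mem _ _ (Submodule.mem_span_singleton_self c₀),
        a₂⁻¹ • m, fun σ hσ => ?_⟩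
      have := hm σ hσ
      have h2 : c σ = a₂⁻¹ • (ρbar.ρ σ * m * ρbar.ρ σ⁻¹ - m) - (a₂⁻¹ * a₁) • c₀ σ := by
        rw [← this, smul_add, smul_smul, smul_smul, inv_mul_cancel₀ ha₂, one_smul]
        abel
      show c σ - (-(a₂⁻¹ * a₁)) • c₀ σ = _
      rw [h2, smul_sub, mul_smul_comm, smul_mul_assoc, neg_smul]
      abel
  · refine ⟨⊥, inferInstance, by simp, ?_⟩
    intro c hc hl
    refine ⟨0, Submodule.zero_mem _, ?_⟩
    rw [sub_zero]
    by_contra hcon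
    exact hex ⟨c, hc, hl, hcon⟩

end Fermat.Agent.S56.FL

end
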