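import Fermat.Agent.S56.FL.FlatSSMain
import Fermat.Agent.S56.FO.H6.FlatO

/-!
# Row S56 — wall LOC-FLAT: CLOSED (sub-architect helper426)

    locFlatPMain : H716.LocFlatPStatement

= `FL.locFlatP_of FL.flatSSMain FO.H6.flatO`: the flat tangent bound at `p` (`P | p`), i.e.
`dim H¹_f(D_P, ad⁰ ρ̄) ≤ 1 + dim H⁰(D_P, ad⁰ ρ̄)` in the plain-function form of `H716/TBSpec.lean`.

* supersingular half `FL.flatSSMain : FlatSSStatement` (`FL/FlatSSMain.lean`; helper426 with
  helper434, 914, 287, 176, 116, 254, 846, 769, 194, 334, 102, 384, 134, 374, 618, 966);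
* ordinary half `FO.H6.flatO : FL.FlatOStatement` (`FO/H6/FlatO.lean`; helper6 with helper906,
  656, 734, 486, 66, 664, 246).

Sorry-free; nothing but the three standard axioms.
-/

set_option autoImplicit false

namespace Fermat.Agent.S56.FL

/-- **LOC-FLAT**, unconditional. -/
theorem locFlatPMain : H716.LocFlatPStatement :=
  locFlatP_of flatSSMain Fermat.Agent.S56.FO.H6.flatO

end Fermat.Agent.S56.FL
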