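import Fermat.Agent.S56.FL.Spec

/-!
# Row S56 — wall W-FLAT-SS: glue `LocalModelStatement → RamCountStatement → FlatSSStatement`
(helper426).  Sorry-free.
-/

set_option autoImplicit false

open Polynomial IsLocalRing

noncomputable section

namespace Fermat.Agent.S56.FL

open Fermat.Agent.S56 Fermat.Agent.S56.H716

/-- Glue: the local model (different bound) and the ramification count give the top statement. -/
theorem flatSS_of (hLM : LocalModelStatement) (hRC : RamCountStatement) : FlatSSStatement := by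
  intro k _ _ p _ hp2 hchar ρbar hdet hsplit P hP hirr c₁ c₂ h₁ h₂ ρ₁ ρ₂ hl₁ hl₂ hf₁ hf₂
  obtain ⟨A, B, iA1, iA2, iA3, iB1, iB2, iB3, iB4, iAB1, iAB2, iAB3, Γ, iΓ1, iΓ2, iΓ3, iΓ4, iΓ5,
    iΓ6, π, ζ, e, hπ, hker, hA, hκ, hζ, hcyc, he, hD⟩ :=
    hLM k p hp2 hchar ρbar hdet P hP c₁ c₂ h₁ h₂ ρ₁ ρ₂ hl₁ hl₂ hf₁ hf₂
  -- a set-theoretic section of `π`
  let s : Γ → P.decompositionSubgroup ℚ := Function.surjInv hπ
  have hs : ∀ γ, π (s γ) = γ := Function.surjInv_eq hπ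
  -- elements with the same image under `π`
  have key : ∀ σ τ : P.decompositionSubgroup ℚ, π σ = π τ →
      ρbar.ρ (σ : GQ) = ρbar.ρ (τ : GQ) ∧ c₁ (σ : GQ) = c₁ (τ : GQ) ∧
        c₂ (σ : GQ) = c₂ (τ : GQ) := by
    intro σ τ h
    have h1 : π (σ⁻¹ * τ) = 1 := by rw [map_mul, map_inv, h, inv_mul_cancel]
    obtain ⟨hρ, hc1, hc2⟩ := (hker _).1 h1
    have hτ : (τ : GQ) = (σ : GQ) * ((σ⁻¹ * τ : P.decompositionSubgroup ℚ) : GQ) := by
      simp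
    refine ⟨?_, ?_, ?_⟩
    · rw [hτ, map_mul, hρ, mul_one]
    · rw [hτ, h₁.map_mul, hc1]; simp
    · rw [hτ, h₂.map_mul, hc2]; simp
  -- the representation and the cocycles on `Γ`
  let ρΓ : Γ →* Module.End k ρbar.V :=
    { toFun := fun γ => ρbar.ρ ((s γ : P.decompositionSubgroup ℚ) : GQ)
      map_one' := by
        have := (key (s 1) 1 (by rw [hs, map_one])).1
        simpa using this
      map_mul' := fun γ γ' => by
        have := (key (s (γ * γ')) (s γ * s γ') (by rw [hs, map_mul, hs, hs])).1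
        simpa using this }
  have hρΓ : ∀ σ : P.decompositionSubgroup ℚ, ρΓ (π σ) = ρbar.ρ (σ : GQ) := fun σ =>
    (key (s (π σ)) σ (hs _)).1
  let d₁ : Γ → Module.End k ρbar.V := fun γ => c₁ ((s γ : P.decompositionSubgroup ℚ) : GQ)
  let d₂ : Γ → Module.End k ρbar.V := fun γ => c₂ ((s γ : P.decompositionSubgroup ℚ) : GQ)
  have hd₁ : ∀ σ : P.decompositionSubgroup ℚ, d₁ (π σ) = c₁ (σ : GQ) := fun σ =>
    (key (s (π σ)) σ (hs _)).2.1
  have hd₂ : ∀ σ : P.decompositionSubgroup ℚ, d₂ (π σ) = c₂ (σ : GQ) := fun σ =>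
    (key (s (π σ)) σ (hs _)).2.2
  have hcoc : ∀ (c : GQ → Module.End k ρbar.V) (d : Γ → Module.End k ρbar.V),
      IsAdCocycle ρbar c → (∀ σ : P.decompositionSubgroup ℚ, d (π σ) = c (σ : GQ)) →
      ∀ γ γ', d (γ * γ') = d γ + ρΓ γ * d γ' * ρΓ γ⁻¹ := by
    intro c d hc hd γ γ'
    obtain ⟨σ, rfl⟩ := hπ γ
    obtain ⟨τ, rfl⟩ := hπ γ'
    rw [← map_mul, ← map_inv, hd, hd, hd, hρΓ, hρΓ]
    simpa using hc.map_mul (σ : GQ) (τ : GQ)
  obtain ⟨a₁, a₂, ha, m, hm⟩ := hRC p hp2 A B Γ hA hκ e he hD k hchar ρbar.V ρbar.finrank_eq ρΓ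
    (by
      intro U hU
      refine hirr U (fun σ hσ x hx => ?_)
      have := hU (π ⟨σ, hσ⟩) x hx
      rwa [hρΓ] at this)
    (by
      intro γ
      obtain ⟨σ, rfl⟩ := hπ γ
      rw [hρΓ]
      exact hsplit _)
    ζ hζ
    (by
      intro γ a hγ
      obtain ⟨σ, rfl⟩ := hπ γ
      rw [hρΓ]
      exact hdet _ a (hcyc σ a hγ))
    d₁ d₂ (hcoc c₁ d₁ h₁ hd₁) (hcoc c₂ d₂ h₂ hd₂)
    (by
      intro γ
      obtain ⟨σ, rfl⟩ := hπ γ
      rw [hd₁]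
      exact h₁.trace_eq_zero _)
    (by
      intro γ
      obtain ⟨σ, rfl⟩ := hπ γ
      rw [hd₂]
      exact h₂.trace_eq_zero _)
    (by
      intro γ h1 h2 h3
      obtain ⟨σ, rfl⟩ := hπ γ
      rw [hρΓ] at h1
      rw [hd₁] at h2
      rw [hd₂] at h3
      exact (hker σ).2 ⟨h1, h2, h3⟩)
  refine ⟨a₁, a₂, ha, m, fun σ hσ => ?_⟩
  have := hm (π ⟨σ, hσ⟩)
  rw [hd₁, hd₂, hρΓ, ← map_inv, hρΓ] at this
  simpa using this

end Fermat.Agent.S56.FL

end
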