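import Fermat.Agent.S56.FL.LMGlue
import Fermat.Agent.S56.H914.IntMain
import Fermat.Agent.S56.H287.StructMain
import Fermat.Agent.S56.H116.Root
import Fermat.Agent.S56.H434.RationalityMain

/-!
# Row S56 — wall W-FLAT-SS — `LocalModelStatement` CLOSED  (architect helper434)

    localModel : FL.LocalModelStatement
      = localModel_of  intStatement            -- INT    (helper914, `H914/IntMain.lean`)
                       struct                  -- STRUCT (helper287 + helper176, `H287/StructMain.lean`)
                       (root_of rationality)   -- ROOT   (helper116 + helper254 + helper434)

Sorry-free; nothing but the three standard axioms.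
-/

set_option autoImplicit false

namespace Fermat.Agent.S56.FL

/-- **ROOT**, unconditional. -/
theorem rootStatement : RootStatement :=
  Fermat.Agent.S56.H116.Root.root_of Fermat.Agent.S56.H434.rationality

/-- **`LocalModelStatement`**, unconditional: the local model at `p` of a pair of flat
dual-number lifts, with Fontaine's bound on the different. -/
theorem localModel : LocalModelStatement :=
  localModel_of Fermat.Agent.S56.H914.intStatement Fermat.Agent.S56.H287.struct rootStatement

end Fermat.Agent.S56.FL
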