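import Fermat.Agent.S56.FL.CntBridge
import Fermat.Agent.S56.FL.Glue
import Fermat.Agent.S56.FL.LMMain
import Fermat.Agent.S56.FL.Top
import Fermat.Agent.S56.H846.FLCnt.Main
import Fermat.Agent.S56.H769.FLCyc
import Fermat.Agent.S56.H194.RLCyc
import Fermat.Agent.S56.H334.RLBase
import Fermat.Agent.S56.H334.RLTame
import Fermat.Agent.S56.H334.RLTheta
import Fermat.Agent.S56.H334.RLQuot
import Fermat.Agent.S56.H102.RLQuotFormula
import Fermat.Agent.S56.H384.RCShape

/-!
# Row S56 — wall LOC-FLAT, supersingular half: assembly (helper426)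

`flatSS_of_hilbert`: `FlatSSStatement` from `RLHilbert`; everything else is plugged in from `main`
(`FL.localModel` of `FL/LMMain.lean`, `H846.flCnt`, `H769.flCyc`, `H194.rlCyc`, `H194.rcTame_of`,
`H334.rl*`, `H102.RLQF.rlQuotFormula`, `H384.rcShape`, the glue `flatSS_of`, `ramCount_of_cnt`).
The unconditional statement is `FL.flatSSMain` in `FL/FlatSSMain.lean`.
-/

set_option autoImplicit false

namespace Fermat.Agent.S56.FL

/-- `RamCountStatement` from `RLHilbert`. -/
theorem ramCount_of_hilbert (rlHilbert : RLHilbertStatement) : RamCountStatement :=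
  ramCount_of_cnt (H194.rcTame_of H334.rlWild H334.rlTame) H846.flCnt H769.flCyc H334.rlWild
    H334.rlComm H334.rlTame H334.rlTheta H334.rlQuot H102.RLQF.rlQuotFormula rlHilbert
    H194.rlCyc H384.rcShape

/-- `FlatSSStatement` from `RLHilbert`. -/
theorem flatSS_of_hilbert (rlHilbert : RLHilbertStatement) : FlatSSStatement :=
  flatSS_of localModel (ramCount_of_hilbert rlHilbert)

end Fermat.Agent.S56.FL
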