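import Fermat.Agent.S56.FL.CntBridgeCyc

/-!
# Row S56 — W-FLAT-SS, piece RAMCOUNT: the bridge to the abstract count (helper426)

Sorry-free, Mathlib only.

    rcDep_of_cnt : H846.FLCntStatement → H846.FLCycStatement → RLWildStatement → RLCommStatement →
      RLTameStatement → RLThetaStatement → RLQuotStatement → RLQuotFormulaStatement →
      RLHilbertStatement → RLCycStatement → RCShapeStatement → RCDepStatement

and hence (with `RCTameStatement`, `ramCount_of_dep`) `RamCountStatement`.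
-/

set_option autoImplicit false

open IsLocalRing

noncomputable section

namespace Fermat.Agent.S56.FL

namespace RCDatum

variable (d : RCDatum)

lemma rho_inv_eq_one {w : d.Γ} (hw : d.ρ w = 1) : d.ρ w⁻¹ = 1 := by
  have h := d.rho_inv_mul w
  rwa [hw, mul_one] at h

lemma c₁_one : d.c₁ 1 = 0 := by
  have h := d.hc₁ 1 1
  simp only [mul_one, map_one, inv_one, one_mul] at h
  exact left_eq_add.mp h

lemma c₂_one : d.c₂ 1 = 0 := by
  have h := d.hc₂ 1 1
  simp only [mul_one, map_one, inv_one, one_mul] at h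
  exact left_eq_add.mp h

/-- A cocycle is conjugation-equivariant on the kernel of `ρ`. -/
lemma bridge_coc_conj (c : d.Γ → Module.End d.k d.V)
    (hc : ∀ σ τ, c (σ * τ) = c σ + d.ρ σ * c τ * d.ρ σ⁻¹) (hc1 : c 1 = 0)
    (g w : d.Γ) (hw : d.ρ w = 1) :
    c (g * w * g⁻¹) = d.ρ g * c w * d.ρ g⁻¹ := by
  have hw' : d.ρ w⁻¹ = 1 := d.rho_inv_eq_one hw
  have h1 : c (g * w * g⁻¹) = c g + d.ρ g * (c w + c g⁻¹) * d.ρ g⁻¹ := by
    rw [mul_assoc, hc g (w * g⁻¹), hc w g⁻¹, hw, hw', one_mul, mul_one]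
  have h2 : c g + d.ρ g * c g⁻¹ * d.ρ g⁻¹ = 0 := by
    rw [← hc g g⁻¹, mul_inv_cancel, hc1]
  rw [h1, mul_add, add_mul, ← add_assoc, add_comm (c g), add_assoc, h2, add_zero]

lemma bridge_coc_mul (c : d.Γ → Module.End d.k d.V)
    (hc : ∀ σ τ, c (σ * τ) = c σ + d.ρ σ * c τ * d.ρ σ⁻¹)
    (w w' : d.Γ) (hw : d.ρ w = 1) : c (w * w') = c w + c w' := by
  have hw' : d.ρ w⁻¹ = 1 := d.rho_inv_eq_one hw
  rw [hc, hw, hw', one_mul, mul_one]

end RCDatum

open RCDatum in
/-- **The bridge**: the abstract count, the ramification lemmas and the shape of `ρ` give the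
linear dependence of the two cocycles on `ker ρ`. -/
theorem rcDep_of_cnt (hCnt : H846.FLCntStatement) (hCyc : H846.FLCycStatement)
    (hW : RLWildStatement) (hC : RLCommStatement) (hT : RLTameStatement)
    (hΘ : RLThetaStatement) (hQ : RLQuotStatement) (hQF : RLQuotFormulaStatement)
    (hH : RLHilbertStatement) (hCy : RLCycStatement) (hS : RCShapeStatement) :
    RCDepStatement := by
  intro d hd
  obtain ⟨τ₀, φ, μ, hT'⟩ := exists_tameData hT d
  have hWd := hW d
  obtain ⟨ℓ₁, ℓp, ℓm, ψ₀, a, b, m, hinj, ht1, htp, htm, hf1, hfp, hfm, hmdvd, hmodd, hτpow,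
    hψpow, hcard⟩ := hS d hd hWd τ₀ φ μ hT' (hCy d hWd (hH d).1 τ₀ φ μ hT')
  haveI : Fact d.p.Prime := ⟨d.hp⟩
  have hp3 := d.three_le_p
  have hwild_le := d.wild_le_ker hWd hd
  have hN : ∀ N : Subgroup d.Γ, N.Normal → N ≤ d.qRamSub ⊥ 1 → d.IsWildNormal N := by
    intro N h1 h2
    rw [d.qRamSub_bot] at h2
    exact ⟨h1, h2⟩
  have hyp : H846.FLCnt.Hyp d.p (d.cntData τ₀ φ m ψ₀ a b ℓ₁ ℓp ℓm) :=
    { p_odd := d.hp2
      charP := d.hchar
      W_normal := MonoidHom.normal_ker d.ρ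
      W_index := hd
      ρ_W := by
        intro w hw
        have hw1 : d.ρ w = 1 := MonoidHom.mem_ker.mp hw
        have hw2 : d.ρ w⁻¹ = 1 := d.rho_inv_eq_one hw1
        apply LinearMap.ext
        intro z
        apply Subtype.ext
        show d.ρ w * z.1 * d.ρ w⁻¹ = z.1
        rw [hw1, hw2, one_mul, mul_one]
      c₁_mul := by
        intro w hw w' _
        apply Subtype.ext
        exact d.bridge_coc_mul d.c₁ d.hc₁ w w' (MonoidHom.mem_ker.mp hw)
      c₂_mul := by
        intro w hw w' _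
        apply Subtype.ext
        exact d.bridge_coc_mul d.c₂ d.hc₂ w w' (MonoidHom.mem_ker.mp hw)
      c₁_conj := by
        intro g w hw
        apply Subtype.ext
        exact d.bridge_coc_conj d.c₁ d.hc₁ d.c₁_one g w (MonoidHom.mem_ker.mp hw)
      c₂_conj := by
        intro g w hw
        apply Subtype.ext
        exact d.bridge_coc_conj d.c₂ d.hc₂ d.c₂_one g w (MonoidHom.mem_ker.mp hw)
      c_inj := by
        intro w hw h1 h2
        exact d.hfaith w (MonoidHom.mem_ker.mp hw) (congrArg Subtype.val h1)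
          (congrArg Subtype.val h2)
      coord_inj := by
        intro z h1 h2 h3
        apply Subtype.ext
        exact hinj z.1 (LinearMap.mem_ker.mp z.2) h1 h2 h3
      tame_ℓ₁ := fun z => ht1 z.1
      tame_ℓp := fun z => htp z.1
      tame_ℓm := fun z => htm z.1
      frob_ℓ₁ := fun z => hf1 z.1 (LinearMap.mem_ker.mp z.2)
      frob_ℓp := fun z => hfp z.1
      frob_ℓm := fun z => hfm z.1
      m_dvd := hmdvd
      m_odd := hmodd
      τ₀_mem := by
        show τ₀ ∈ d.qRamSub ⊥ 0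
        rw [d.qRamSub_bot]
        exact hT'.1
      τ₀_pow := fun j => by
        show τ₀ ^ j ∈ d.ρ.ker ↔ _
        rw [MonoidHom.mem_ker]
        exact hτpow j
      ψ₀_pow := hψpow
      card_inertia := by
        show Nat.card (d.qRamSub ⊥ 0) = (d.p - 1) * m *
          Nat.card (d.ρ.ker ⊓ d.qRamSub ⊥ 0 : Subgroup d.Γ)
        rw [d.qRamSub_bot]
        exact hcard
      wild_pgroup := by
        show IsPGroup d.p (d.qRamSub ⊥ 1)
        rw [d.qRamSub_bot]
        exact hWd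
      tame_no_p := by
        show ∀ σ ∈ d.qRamSub ⊥ 0, σ ^ d.p ∈ d.qRamSub ⊥ 1 → σ ∈ d.qRamSub ⊥ 1
        rw [d.qRamSub_bot, d.qRamSub_bot]
        exact d.bridge_tame_no_p hQ hH hT'
      frob_comm := by
        intro w _
        show φ * w * φ⁻¹ * w⁻¹ ∈ d.qRamSub ⊥ 0
        rw [d.qRamSub_bot]
        exact hC d φ w
      F_normal := fun N h1 _ h3 n => d.qRamSub_normal hQ (hN N h1 h3) n
      mem_F := fun N h1 _ h3 n σ => d.mem_qRam_iff hQ (hN N h1 h3) n σ
      F_zero := by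
        intro N h1 _ h3 σ hσ
        obtain ⟨-, h, -⟩ := hQ d N (hN N h1 h3)
        change σ ∈ d.qRamSub ⊥ 0 at hσ
        rw [d.qRamSub_bot] at hσ
        exact h σ hσ
      F_one := by
        intro N h1 _ h3 σ hσ
        obtain ⟨-, -, h, -⟩ := hQ d N (hN N h1 h3)
        change σ ∈ d.qRamSub ⊥ 1 at hσ
        rw [d.qRamSub_bot] at hσ
        exact h σ hσ
      F_one' := by
        intro N h1 _ h3 σ hσ
        obtain ⟨-, -, -, h, -⟩ := hQ d N (hN N h1 h3)
        obtain ⟨hσ1, hσ0⟩ := Subgroup.mem_inf.mp hσ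
        change σ ∈ d.qRamSub ⊥ 0 at hσ0
        show σ ∈ d.qRamSub ⊥ 1
        rw [d.qRamSub_bot] at hσ0 ⊢
        exact h σ hσ0 hσ1
      comm_rule := by
        intro N h1 _ h3 n hn σ hσ hσ' τ hτ
        obtain ⟨-, -, -, -, -, h⟩ := hQ d N (hN N h1 h3)
        change τ ∈ d.qRamSub ⊥ 0 at hτ
        rw [d.qRamSub_bot] at hτ
        exact h n hn σ hσ hσ' τ hτ
      quot_formula := by
        intro N h1 _ h3 σ hσ
        have h := hQF d N (hN N h1 h3) σ hσ
        show ∑ᶠ (w : d.Γ) (_ : w ∈ N), d.iQ ⊥ (σ * w) = Nat.card N * d.iQ N σ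
        simp only [d.iQ_bot]
        exact h
      D_bound := by
        intro hne
        show (d.p - 1) * ∑ᶠ (σ : d.Γ) (_ : σ ∈ d.qRamSub ⊥ 0) (_ : σ ≠ 1), d.iQ ⊥ σ
          ≤ d.p * Nat.card (d.qRamSub ⊥ 0)
        have hne' : ramGroup d.B d.Γ 1 ≠ ⊥ := by
          rw [← d.qRamSub_bot]; exact hne
        rw [d.qRamSub_bot]
        refine d.bridge_D_bound hQ hH (m * Nat.card (d.ρ.ker ⊓ ramGroup d.B d.Γ 0 : Subgroup d.Γ))
          (by rw [hcard, mul_assoc]) ?_
        apply Dvd.dvd.mul_left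
        have h1 : ramGroup d.B d.Γ 1 ≤ d.ρ.ker ⊓ ramGroup d.B d.Γ 0 :=
          le_inf hwild_le (d.ramGroup_anti (Nat.zero_le 1))
        have h2 : Nat.card (ramGroup d.B d.Γ 1) ∣
            Nat.card (d.ρ.ker ⊓ ramGroup d.B d.Γ 0 : Subgroup d.Γ) :=
          Subgroup.card_dvd_of_le h1
        refine Dvd.dvd.trans ?_ h2
        obtain ⟨k, hk⟩ := IsPGroup.iff_card.mp hWd
        rcases Nat.eq_zero_or_pos k with h0 | h0
        · exfalso
          rw [h0, pow_zero] at hk
          exact hne' ((Subgroup.card_eq_one).mp hk)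
        · rw [hk]
          exact dvd_pow_self _ (by omega)
      cyc := by
        intro hm2 hWeq hFp
        change m ≠ 2 at hm2
        change d.ρ.ker = d.qRamSub ⊥ (d.p - 1) at hWeq
        change d.qRamSub ⊥ d.p = ⊥ at hFp
        rw [d.qRamSub_bot] at hWeq hFp
        show ∃ w₀ ∈ d.ρ.ker, ∀ H : Subgroup d.Γ, w₀ ∈ H → (∀ h ∈ H, τ₀ * h * τ₀⁻¹ ∈ H) →
          (∀ h ∈ H, φ ^ 2 * h * (φ ^ 2)⁻¹ ∈ H) → d.ρ.ker ≤ H
        rw [hWeq]
        -- `W = Γ₁`
        have hW1 : d.ρ.ker = ramGroup d.B d.Γ 1 :=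
          le_antisymm (hWeq.le.trans (d.ramGroup_anti (by omega))) hwild_le
        -- `m > 2`
        have hm0 : m ≠ 0 := by
          rintro rfl
          rw [zero_dvd_iff] at hmdvd
          omega
        have hm1 : m ≠ 1 := by
          rintro rfl
          rw [Nat.div_one] at hmodd
          have hpodd : Odd d.p := d.hp.odd_of_ne_two d.hp2
          have : Even (d.p + 1) := hpodd.add_one
          exact (Nat.not_odd_iff_even.mpr this) hmodd
        have hm3 : 2 < m := by omega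
        refine d.bridge_cyc hCyc hΘ hH hQ hT' m ?_ hmdvd hm3 hFp
        intro j
        rw [← pow_mul, ← hT'.2.2.1, ← hW1, MonoidHom.mem_ker, hτpow]
        exact Nat.mul_dvd_mul_iff_left (by omega) }
  obtain ⟨a₁, a₂, ha, hdep⟩ := hCnt d.p d.Γ d.k d.Z0 (d.cntData τ₀ φ m ψ₀ a b ℓ₁ ℓp ℓm) hyp
  refine ⟨a₁, a₂, ha, fun σ hσ => ?_⟩
  have h := hdep σ (MonoidHom.mem_ker.mpr hσ)
  exact congrArg Subtype.val h

/-- The ramification count from the abstract count, the ramification lemmas and the supersingular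
structure. -/
theorem ramCount_of_cnt (hTame : RCTameStatement)
    (hCnt : H846.FLCntStatement) (hCyc : H846.FLCycStatement)
    (hW : RLWildStatement) (hC : RLCommStatement) (hT : RLTameStatement)
    (hΘ : RLThetaStatement) (hQ : RLQuotStatement) (hQF : RLQuotFormulaStatement)
    (hH : RLHilbertStatement) (hCy : RLCycStatement) (hS : RCShapeStatement) :
    RamCountStatement :=
  ramCount_of_dep hTame (rcDep_of_cnt hCnt hCyc hW hC hT hΘ hQ hQF hH hCy hS)

end Fermat.Agent.S56.FL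

end
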