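import Fermat.Agent.S56.FL.CntBridgeRam

/-!
# Row S56 — W-FLAT-SS, piece RAMCOUNT: the bridge to the abstract count, the field `cyc`
(helper426).  Sorry-free, Mathlib only.

`bridge_cyc`: the cyclicity statement for `W = Γ_{p-1}` (with `Γ_p = 1`) from
`H846.FLCycStatement` applied to `θ_{p-1}` of `RLThetaStatement`.
-/

set_option autoImplicit false

open IsLocalRing

noncomputable section

namespace Fermat.Agent.S56.FL

namespace RCDatum

variable (d : RCDatum)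

lemma finite_residue : Finite (ResidueField d.B) := by
  have h1 : Finite (ResidueField d.A) := by
    apply Nat.finite_of_card_ne_zero
    rw [d.hκ]
    exact d.hp.ne_zero
  exact IsLocalRing.ResidueField.finite_of_finite (R := d.A) (S := d.B) h1

/-- Every `g` multiplies a uniformizer by some element. -/
lemma exists_smul_eq_mul (g : d.Γ) {ϖ : d.B} (hϖ : Irreducible ϖ) :
    ∃ u : d.B, g • ϖ = u * ϖ := by
  have h1 : ϖ ∈ maximalIdeal d.B ^ 1 := by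
    rw [pow_one, hϖ.maximalIdeal_eq]
    exact Ideal.mem_span_singleton_self _
  have h2 := d.bridge_smul_mem_maxPow g 1 h1
  rw [pow_one, hϖ.maximalIdeal_eq, Ideal.mem_span_singleton'] at h2
  obtain ⟨u, hu⟩ := h2
  exact ⟨u, hu.symm⟩

lemma residue_smul_of_mem_inertia {τ : d.Γ} (hτ : τ ∈ ramGroup d.B d.Γ 0) (a : d.B) :
    residue d.B (τ • a) = residue d.B a := by
  rw [mem_ramGroup] at hτ
  have h1 := hτ a
  rw [zero_add, pow_one] at h1
  rw [← sub_eq_zero, ← map_sub]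
  exact (residue_eq_zero_iff _).mpr h1

lemma bridge_cyc (hCyc : H846.FLCycStatement) (hΘ : RLThetaStatement)
    (hH : RLHilbertStatement) (hQ : RLQuotStatement)
    {τ₀ φ : d.Γ} {μ : ResidueField d.B} (hT : d.TameData τ₀ φ μ) (m : ℕ)
    (hm : ∀ j : ℕ, (μ ^ (d.p - 1)) ^ j = 1 ↔ m ∣ j) (hmdvd : m ∣ d.p + 1) (hm2 : 2 < m)
    (hp1 : ramGroup d.B d.Γ d.p = ⊥) :
    ∃ w₀ ∈ ramGroup d.B d.Γ (d.p - 1), ∀ H : Subgroup d.Γ, w₀ ∈ H →
      (∀ h ∈ H, τ₀ * h * τ₀⁻¹ ∈ H) → (∀ h ∈ H, φ ^ 2 * h * (φ ^ 2)⁻¹ ∈ H) →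
      ramGroup d.B d.Γ (d.p - 1) ≤ H := by
  haveI : Fact d.p.Prime := ⟨d.hp⟩
  haveI := d.charP_residue hH
  haveI := d.finite_residue
  haveI := d.ramGroup_normal hQ (d.p - 1)
  have hp3 := d.three_le_p
  obtain ⟨ϖ, hϖ⟩ := IsDiscreteValuationRing.exists_irreducible d.B
  obtain ⟨θ, -, hadd, hker, hconj⟩ := hΘ d ϖ hϖ (d.p - 1) (by omega)
  obtain ⟨hτ₀, -, -, hμ, hφ, -, -⟩ := hT
  obtain ⟨uτ, huτ⟩ := d.exists_smul_eq_mul τ₀ hϖ
  obtain ⟨uφ, huφ⟩ := d.exists_smul_eq_mul φ hϖ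
  refine hCyc d.p d.Γ (ResidueField d.B) (ramGroup d.B d.Γ (d.p - 1)) τ₀ φ θ (μ ^ (d.p - 1))
    (residue d.B uφ ^ (d.p - 1)) m inferInstance hadd ?_ ?_ ?_ hm hmdvd hm2
  · intro w hw h0
    have h1 := hker w hw h0
    rw [show d.p - 1 + 1 = d.p by omega, hp1, Subgroup.mem_bot] at h1
    exact h1
  · intro w hw
    obtain ⟨a, ha⟩ := residue_surjective (θ w)
    rw [hconj w hw τ₀ uτ a huτ ha, hμ ϖ hϖ uτ huτ, d.residue_smul_of_mem_inertia hτ₀, ha]
  · intro w hw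
    obtain ⟨a, ha⟩ := residue_surjective (θ w)
    rw [hconj w hw φ uφ a huφ ha, hφ a, ha]

/-- The wild inertia group lies in the kernel of `ρ` when the image has order prime to `p`. -/
lemma wild_le_ker (hW : IsPGroup d.p (ramGroup d.B d.Γ 1)) (hd : ¬ d.p ∣ d.ρ.ker.index) :
    ramGroup d.B d.Γ 1 ≤ d.ρ.ker := by
  intro g hg
  obtain ⟨k, hk⟩ := hW ⟨g, hg⟩
  have hk' : g ^ d.p ^ k = 1 := by
    have := congrArg Subtype.val hk
    simpa using this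
  have h1 : orderOf (QuotientGroup.mk g : d.Γ ⧸ d.ρ.ker) ∣ d.p ^ k := by
    apply orderOf_dvd_of_pow_eq_one
    rw [← QuotientGroup.mk_pow, hk', QuotientGroup.mk_one]
  have h2 : orderOf (QuotientGroup.mk g : d.Γ ⧸ d.ρ.ker) ∣ d.ρ.ker.index := by
    rw [Subgroup.index_eq_card]
    exact orderOf_dvd_natCard _
  have h3 : Nat.Coprime (d.p ^ k) d.ρ.ker.index :=
    Nat.Coprime.pow_left k ((Nat.Prime.coprime_iff_not_dvd d.hp).mpr hd)
  have h4 : orderOf (QuotientGroup.mk g : d.Γ ⧸ d.ρ.ker) = 1 :=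
    Nat.eq_one_of_dvd_coprimes h3 h1 h2
  rw [orderOf_eq_one_iff, QuotientGroup.eq_one_iff] at h4
  exact h4

end RCDatum

end Fermat.Agent.S56.FL

end
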