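import Fermat.Agent.S56.FL.RamSpec

/-!
# Row S56 — W-FLAT-SS, leaf RCInfl (inflation–restriction by averaging) (helper426)

`rcInfl : RCInflStatement`.  Sorry-free, Mathlib only.
-/

set_option autoImplicit false

open Polynomial IsLocalRing

noncomputable section

namespace Fermat.Agent.S56.FL

section

variable {Γ : Type} [Group Γ] {k : Type} [Field k] {V : Type} [AddCommGroup V] [Module k V]
  (ρ : Γ →* Module.End k V)

lemma rho_mul_rho_inv' (σ : Γ) : ρ σ * ρ σ⁻¹ = 1 := by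
  rw [← map_mul, mul_inv_cancel, map_one]

lemma rho_inv_mul_rho' (σ : Γ) : ρ σ⁻¹ * ρ σ = 1 := by
  rw [← map_mul, inv_mul_cancel, map_one]

/-- A cocycle vanishing on `ker ρ` is constant on cosets of `ker ρ`. -/
lemma cocycle_eq_of_rho_eq {c : Γ → Module.End k V}
    (hc : ∀ σ τ, c (σ * τ) = c σ + ρ σ * c τ * ρ σ⁻¹) (hv : ∀ σ, ρ σ = 1 → c σ = 0)
    {σ τ : Γ} (h : ρ σ = ρ τ) : c σ = c τ := by
  have h1 : τ = σ * (σ⁻¹ * τ) := by group
  have h2 : ρ (σ⁻¹ * τ) = 1 := by rw [map_mul, ← h, rho_inv_mul_rho']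
  rw [h1, hc, hv _ h2]
  simp

end

/-- (IR) inflation–restriction by averaging over `Γ / ker ρ`. -/
theorem rcInfl : RCInflStatement := by
  intro p hp Γ _ _ k _ _ V _ _ ρ hindex c hc hv
  classical
  -- the quotient `Δ = Γ / ker ρ`
  set K : Subgroup Γ := ρ.ker with hK
  have : Fintype (Γ ⧸ K) := Fintype.ofFinite _
  have hcard : ((Nat.card (Γ ⧸ K) : ℕ) : k) ≠ 0 := by
    intro h0
    rw [CharP.cast_eq_zero_iff k p] at h0
    exact hindex (by simpa [Subgroup.index] using h0)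
  -- `c` and `ρ` factor through `Δ`
  have hρ : ∀ σ τ : Γ, (σ : Γ ⧸ K) = (τ : Γ ⧸ K) → ρ σ = ρ τ := by
    intro σ τ h
    have hmem : σ⁻¹ * τ ∈ K := QuotientGroup.eq.1 h
    have h2 : ρ (σ⁻¹ * τ) = 1 := hmem
    have h1 : τ = σ * (σ⁻¹ * τ) := by group
    rw [h1, map_mul, h2, mul_one]
  have hcΔ : ∀ σ τ : Γ, (σ : Γ ⧸ K) = (τ : Γ ⧸ K) → c σ = c τ :=
    fun σ τ h => cocycle_eq_of_rho_eq ρ hc hv (hρ σ τ h)
  let cΔ : Γ ⧸ K → Module.End k V := fun x => c (Quotient.out x)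
  have hcΔ' : ∀ σ : Γ, cΔ (σ : Γ ⧸ K) = c σ := fun σ =>
    hcΔ _ _ (QuotientGroup.out_eq' (σ : Γ ⧸ K))
  -- the averaging element
  set s : Module.End k V := ∑ x : Γ ⧸ K, cΔ x with hs
  set N : k := ((Nat.card (Γ ⧸ K) : ℕ) : k) with hN
  refine ⟨-(N⁻¹ • s), fun σ => ?_⟩
  -- `ρ σ * s * ρ σ⁻¹ = s - N • c σ`
  have key : ρ σ * s * ρ σ⁻¹ = s - N • c σ := by
    have h1 : ρ σ * s * ρ σ⁻¹ = ∑ x : Γ ⧸ K, ρ σ * cΔ x * ρ σ⁻¹ := by
      rw [hs, Finset.mul_sum, Finset.sum_mul]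
    have h2 : ∀ x : Γ ⧸ K, ρ σ * cΔ x * ρ σ⁻¹ = cΔ ((σ : Γ ⧸ K) * x) - c σ := by
      intro x
      obtain ⟨τ, rfl⟩ := QuotientGroup.mk_surjective x
      rw [hcΔ', ← QuotientGroup.mk_mul, hcΔ', hc]
      abel
    rw [h1, Finset.sum_congr rfl (fun x _ => h2 x), Finset.sum_sub_distrib]
    have h3 : ∑ x : Γ ⧸ K, cΔ ((σ : Γ ⧸ K) * x) = s := by
      rw [hs]
      exact Fintype.sum_equiv (Equiv.mulLeft (σ : Γ ⧸ K)) _ _ (fun x => rfl)
    rw [h3, Finset.sum_const, Finset.card_univ, hN, Nat.card_eq_fintype_card, Nat.cast_smul_eq_nsmul]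
  rw [mul_neg, neg_mul, mul_smul_comm, smul_mul_assoc, key, smul_sub, smul_smul,
    inv_mul_cancel₀ hcard, one_smul]
  abel

end Fermat.Agent.S56.FL

end
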