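import Fermat.Agent.S56.FL.RamGlue
import Fermat.Agent.S56.FL.RCInfl

/-!
# Row S56 — W-FLAT-SS, piece RAMCOUNT: second glue (helper426).  Sorry-free.

`RCDepStatement` merges `RCWild + RCBreak + RCLine` into one target (the shape delivered by the
abstract count `H846.FLCntStatement` once its hypotheses are instantiated from an `RCDatum`):

`ramCount_of_dep : RCTameStatement → RCDepStatement → RamCountStatement`.
-/

set_option autoImplicit false

open Polynomial IsLocalRing

noncomputable section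

namespace Fermat.Agent.S56.FL

/-- (DEP) `c₁, c₂` are linearly dependent on `ker ρ` (given `p ∤ [Γ : ker ρ]`). -/
def RCDepStatement : Prop :=
  ∀ d : RCDatum, ¬ d.p ∣ d.ρ.ker.index → d.DepOnKer

/-- The three-step form of the count gives the one-step form. -/
theorem rcDep_of (hW : RCWildStatement) (hB : RCBreakStatement) (hL : RCLineStatement) :
    RCDepStatement :=
  fun d hd => hL d hd (hW d hd) (hB d hd (hW d hd))

/-- Glue for the ramification count, one-step form. -/
theorem ramCount_of_dep (hT : RCTameStatement) (hDep : RCDepStatement) : RamCountStatement := by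
  intro p hpf hp2 A B _ _ _ _ _ _ _ _ _ _ Γ _ _ _ _ _ _ hA hκ e he hD k _ _ hchar V _ _ _ hV ρ
    hirr hsplit ζ hζ hdet c₁ c₂ hc₁ hc₂ htr₁ htr₂ hfaith
  let d : RCDatum :=
    { p := p, A := A, B := B, Γ := Γ, k := k, V := V, hp := hpf.out, hp2 := hp2, hA := hA,
      hκ := hκ, e := e, he := he, hD := hD, hchar := hchar, hV := hV, ρ := ρ, hirr := hirr,
      hsplit := hsplit, ζ := ζ, hζ := hζ, hdet := hdet, c₁ := c₁, c₂ := c₂, hc₁ := hc₁,
      hc₂ := hc₂, htr₁ := htr₁, htr₂ := htr₂, hfaith := hfaith }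
  have hT' : ¬ p ∣ ρ.ker.index := hT d
  obtain ⟨a₁, a₂, ha, hker⟩ := hDep d hT'
  have := hchar
  obtain ⟨m, hm⟩ := rcInfl p Γ k V ρ hT' (fun σ => a₁ • c₁ σ + a₂ • c₂ σ)
    (by
      intro σ τ
      simp only [hc₁, hc₂, smul_add, mul_add, add_mul, mul_smul_comm, smul_mul_assoc]
      abel)
    (fun σ hσ => hker σ hσ)
  exact ⟨a₁, a₂, ha, m, hm⟩

end Fermat.Agent.S56.FL

end
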