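import Fermat.Agent.S56.FL.ShapeSpec
import Fermat.Agent.S56.FL.RamGlue2
import Fermat.Agent.S56.H846.FLCnt.Spec

/-!
# Row S56 — W-FLAT-SS, piece RAMCOUNT: the bridge to the abstract count, definitions
(helper426).  Sorry-free, Mathlib only.

From an `RCDatum` `d` we build the data `H846.FLCnt.Data d.Γ d.k d.Z0` of the abstract count:
`Z0` = trace-zero endomorphisms, `adZ` = adjoint action, `qRamSub N n` = the subgroup with
carrier `d.qRam N n`, `iQ N σ = #{n | σ ∈ qRam N n}`.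
-/

set_option autoImplicit false

open IsLocalRing

noncomputable section

namespace Fermat.Agent.S56.FL

namespace RCDatum

variable (d : RCDatum)

/-! ### The action on `B` preserves the powers of the maximal ideal -/

lemma bridge_smul_mem_maxPow (σ : d.Γ) (n : ℕ) {x : d.B} (hx : x ∈ maximalIdeal d.B ^ n) :
    σ • x ∈ maximalIdeal d.B ^ n := by
  have h1 : Ideal.map (MulSemiringAction.toRingHom d.Γ d.B σ) (maximalIdeal d.B)
      ≤ maximalIdeal d.B := by
    rw [Ideal.map_le_iff_le_comap]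
    intro y hy
    rw [Ideal.mem_comap, mem_maximalIdeal, mem_nonunits_iff]
    rw [mem_maximalIdeal, mem_nonunits_iff] at hy
    intro hu
    apply hy
    have h2 : IsUnit (σ⁻¹ • (σ • y)) :=
      hu.map (MulSemiringAction.toRingHom d.Γ d.B σ⁻¹)
    rwa [inv_smul_smul] at h2
  have h3 : (MulSemiringAction.toRingHom d.Γ d.B σ) x ∈
      Ideal.map (MulSemiringAction.toRingHom d.Γ d.B σ) (maximalIdeal d.B ^ n) :=
    Ideal.mem_map_of_mem _ hx
  rw [Ideal.map_pow] at h3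
  exact Ideal.pow_right_mono h1 n h3

/-! ### The groups `qRam` -/

/-- The subgroup with carrier `d.qRam N n`. -/
def qRamSub (N : Subgroup d.Γ) (n : ℕ) : Subgroup d.Γ where
  carrier := d.qRam N n
  mul_mem' := by
    intro σ τ hσ hτ x hx
    have h1 : (σ * τ) • x - x = σ • (τ • x - x) + (σ • x - x) := by
      rw [mul_smul, smul_sub]; ring
    rw [h1]
    exact Ideal.add_mem _ (d.bridge_smul_mem_maxPow σ _ (hτ x hx)) (hσ x hx)
  one_mem' := by
    intro x _
    simp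
  inv_mem' := by
    intro σ hσ x hx
    have h1 : σ⁻¹ • x - x = -(σ⁻¹ • (σ • x - x)) := by
      rw [smul_sub, inv_smul_smul]; ring
    rw [h1]
    exact Ideal.neg_mem_iff _ |>.mpr (d.bridge_smul_mem_maxPow σ⁻¹ _ (hσ x hx))

@[simp] lemma mem_qRamSub {N : Subgroup d.Γ} {n : ℕ} {σ : d.Γ} :
    σ ∈ d.qRamSub N n ↔ σ ∈ d.qRam N n := Iff.rfl

lemma coe_qRamSub (N : Subgroup d.Γ) (n : ℕ) : (d.qRamSub N n : Set d.Γ) = d.qRam N n := rfl

lemma qRam_bot (n : ℕ) : d.qRam ⊥ n = (ramGroup d.B d.Γ n : Set d.Γ) := by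
  ext σ
  have hc : Nat.card (⊥ : Subgroup d.Γ) = 1 := Subgroup.card_bot
  constructor
  · intro h
    rw [SetLike.mem_coe, mem_ramGroup]
    intro x
    have := h x (fun ν hν => by rw [Subgroup.mem_bot.mp hν, one_smul])
    rwa [hc, one_mul] at this
  · intro h x _
    rw [SetLike.mem_coe, mem_ramGroup] at h
    rw [hc, one_mul]
    exact h x

lemma qRamSub_bot (n : ℕ) : d.qRamSub ⊥ n = ramGroup d.B d.Γ n :=
  SetLike.coe_injective (d.qRam_bot n)

lemma qRam_anti (N : Subgroup d.Γ) {n n' : ℕ} (h : n ≤ n') : d.qRam N n' ⊆ d.qRam N n := by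
  intro σ hσ x hx
  exact Ideal.pow_le_pow_right (Nat.mul_le_mul_left _ (Nat.succ_le_succ h)) (hσ x hx)

lemma mem_qRam_of_mem (N : Subgroup d.Γ) (n : ℕ) {σ : d.Γ} (hσ : σ ∈ N) : σ ∈ d.qRam N n := by
  intro x hx
  rw [hx σ hσ, sub_self]
  exact Ideal.zero_mem _

lemma ramGroup_anti {n n' : ℕ} (h : n ≤ n') : ramGroup d.B d.Γ n' ≤ ramGroup d.B d.Γ n := by
  intro σ hσ
  rw [mem_ramGroup] at hσ ⊢
  intro x
  exact Ideal.pow_le_pow_right (Nat.succ_le_succ h) (hσ x)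

/-- `i_{Γ/N}(σ N)` as the number of `n` with `σ ∈ qRam N n`. -/
def iQ (N : Subgroup d.Γ) (σ : d.Γ) : ℕ := Nat.card {n : ℕ | σ ∈ d.qRam N n}

/-! ### Trace-zero endomorphisms and the adjoint action -/

/-- The trace-zero endomorphisms of `V`. -/
abbrev Z0 : Type := ↥(LinearMap.ker (LinearMap.trace d.k d.V))

lemma rho_mul_inv (g : d.Γ) : d.ρ g * d.ρ g⁻¹ = 1 := by
  rw [← map_mul, mul_inv_cancel, map_one]

lemma rho_inv_mul (g : d.Γ) : d.ρ g⁻¹ * d.ρ g = 1 := by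
  rw [← map_mul, inv_mul_cancel, map_one]

lemma trace_conj (g : d.Γ) (z : Module.End d.k d.V) :
    LinearMap.trace d.k d.V (d.ρ g * z * d.ρ g⁻¹) = LinearMap.trace d.k d.V z := by
  rw [LinearMap.trace_mul_comm, ← mul_assoc, d.rho_inv_mul, one_mul]

/-- Conjugation by `ρ g` on trace-zero endomorphisms. -/
def adZfun (g : d.Γ) : Module.End d.k d.Z0 where
  toFun z := ⟨d.ρ g * z.1 * d.ρ g⁻¹, by
    rw [LinearMap.mem_ker, d.trace_conj]; exact z.2⟩
  map_add' z w := by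
    apply Subtype.ext
    simp [mul_add, add_mul]
  map_smul' c z := by
    apply Subtype.ext
    simp

@[simp] lemma adZfun_coe (g : d.Γ) (z : d.Z0) :
    ((d.adZfun g z : d.Z0) : Module.End d.k d.V) = d.ρ g * z.1 * d.ρ g⁻¹ := rfl

/-- The adjoint action on trace-zero endomorphisms. -/
def adZ : d.Γ →* Module.End d.k d.Z0 where
  toFun := d.adZfun
  map_one' := by
    apply LinearMap.ext
    intro z
    apply Subtype.ext
    simp
  map_mul' g h := by
    apply LinearMap.ext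
    intro z
    apply Subtype.ext
    simp [mul_assoc]

@[simp] lemma adZ_coe (g : d.Γ) (z : d.Z0) :
    ((d.adZ g z : d.Z0) : Module.End d.k d.V) = d.ρ g * z.1 * d.ρ g⁻¹ := rfl

/-- The first cocycle with values in `Z0`. -/
def cz₁ (σ : d.Γ) : d.Z0 := ⟨d.c₁ σ, d.htr₁ σ⟩

/-- The second cocycle with values in `Z0`. -/
def cz₂ (σ : d.Γ) : d.Z0 := ⟨d.c₂ σ, d.htr₂ σ⟩

/-- The data of the abstract count attached to an `RCDatum` and a choice of tame generator,
Frobenius lift and coordinates. -/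
def cntData (τ₀ φ : d.Γ) (m : ℕ) (ψ₀ a b : d.k) (ℓ₁ ℓp ℓm : Module.End d.k d.V →ₗ[d.k] d.k) :
    H846.FLCnt.Data d.Γ d.k d.Z0 where
  ρ := d.adZ
  W := d.ρ.ker
  c₁ := d.cz₁
  c₂ := d.cz₂
  F := d.qRamSub
  i := d.iQ
  τ₀ := τ₀
  φ := φ
  m := m
  ψ₀ := ψ₀
  ℓ₁ := ℓ₁ ∘ₗ (LinearMap.ker (LinearMap.trace d.k d.V)).subtype
  ℓp := ℓp ∘ₗ (LinearMap.ker (LinearMap.trace d.k d.V)).subtype
  ℓm := ℓm ∘ₗ (LinearMap.ker (LinearMap.trace d.k d.V)).subtype
  a := a
  b := b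

end RCDatum

end Fermat.Agent.S56.FL

end
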