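import Fermat.Agent.S56.FL.CntBridgeDefs

/-!
# Row S56 — W-FLAT-SS, piece RAMCOUNT: the bridge to the abstract count, ramification fields
(helper426).  Sorry-free, Mathlib only.

The fields `F_normal, mem_F, F_zero, F_one, F_one', comm_rule, quot_formula, wild_pgroup,
frob_comm, tame_no_p, D_bound` of `H846.FLCnt.Hyp` for the data `RCDatum.cntData`, from the frozen
ramification statements `RL*`.
-/

set_option autoImplicit false

open IsLocalRing

noncomputable section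

namespace Fermat.Agent.S56.FL

namespace RCDatum

variable (d : RCDatum)

/-! ### `iQ` and membership -/

lemma iQ_bot (σ : d.Γ) : d.iQ ⊥ σ = Nat.card {n : ℕ | σ ∈ ramGroup d.B d.Γ n} := by
  unfold iQ
  have : {n : ℕ | σ ∈ d.qRam ⊥ n} = {n : ℕ | σ ∈ ramGroup d.B d.Γ n} := by
    ext n
    show σ ∈ d.qRam ⊥ n ↔ σ ∈ ramGroup d.B d.Γ n
    rw [d.qRam_bot n, SetLike.mem_coe]
  rw [this]

/-- A downward closed set of natural numbers omitting some number is an initial segment. -/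
lemma bridge_card_downset (S : Set ℕ) (hdown : ∀ n n', n ≤ n' → n' ∈ S → n ∈ S)
    (hex : ∃ n, n ∉ S) : ∀ n, n ∈ S ↔ n + 1 ≤ Nat.card S := by
  classical
  have hS : S = Set.Iio (Nat.find hex) := by
    ext n
    constructor
    · intro hn
      by_contra hlt
      exact Nat.find_spec hex (hdown _ _ (not_lt.mp hlt) hn)
    · intro hn
      by_contra hnS
      exact Nat.find_min hex hn hnS
  intro n
  have hcard : Nat.card S = Nat.find hex := by
    conv_lhs => rw [hS]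
    rw [Nat.card_eq_fintype_card]
    simp
  rw [hcard]
  conv_lhs => rw [hS]
  exact Iff.rfl

lemma mem_qRam_iff (hQ : RLQuotStatement) {N : Subgroup d.Γ} (hN : d.IsWildNormal N) (n : ℕ)
    (σ : d.Γ) : σ ∈ d.qRam N n ↔ σ ∈ N ∨ n + 1 ≤ d.iQ N σ := by
  by_cases hσ : σ ∈ N
  · simp only [hσ, true_or, iff_true]
    exact d.mem_qRam_of_mem N n hσ
  · simp only [hσ, false_or]
    obtain ⟨-, -, -, -, hsep, -⟩ := hQ d N hN
    exact bridge_card_downset {n : ℕ | σ ∈ d.qRam N n}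
      (fun n n' h hn' => d.qRam_anti N h hn') (hsep σ hσ) n

lemma qRamSub_normal (hQ : RLQuotStatement) {N : Subgroup d.Γ} (hN : d.IsWildNormal N) (n : ℕ) :
    (d.qRamSub N n).Normal := by
  obtain ⟨h1, -⟩ := hQ d N hN
  obtain ⟨F, hF, hFc⟩ := h1 n
  have : d.qRamSub N n = F := SetLike.coe_injective (by rw [hFc, coe_qRamSub])
  rw [this]
  exact hF

lemma isWildNormal_bot : d.IsWildNormal ⊥ := ⟨inferInstance, bot_le⟩

lemma ramGroup_normal (hQ : RLQuotStatement) (n : ℕ) : (ramGroup d.B d.Γ n).Normal := by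
  rw [← d.qRamSub_bot n]
  exact d.qRamSub_normal hQ d.isWildNormal_bot n

/-- The ramification filtration is eventually trivial. -/
lemma exists_ramGroup_eq_bot (hQ : RLQuotStatement) :
    ∃ n₀, ∀ n, n₀ ≤ n → ramGroup d.B d.Γ n = ⊥ := by
  classical
  obtain ⟨-, -, -, -, hsep, -⟩ := hQ d ⊥ d.isWildNormal_bot
  have hsep' : ∀ σ : d.Γ, σ ≠ 1 → ∃ n, σ ∉ ramGroup d.B d.Γ n := by
    intro σ hσ
    obtain ⟨n, hn⟩ := hsep σ (by simpa using hσ)
    exact ⟨n, fun h => hn (by rw [d.qRam_bot n]; exact h)⟩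
  choose! f hf using hsep'
  letI := Fintype.ofFinite d.Γ
  refine ⟨Finset.univ.sup f, fun n hn => ?_⟩
  rw [eq_bot_iff]
  intro σ hσ
  rw [Subgroup.mem_bot]
  by_contra h1
  exact hf σ h1 (d.ramGroup_anti ((Finset.le_sup (Finset.mem_univ σ)).trans hn) hσ)

/-! ### Double counting for Hilbert's formula -/

open Classical in
lemma card_ramGroup_sub_one [Fintype d.Γ] (n : ℕ) :
    Nat.card (ramGroup d.B d.Γ n) - 1 =
      ∑ σ : d.Γ, if σ ≠ 1 ∧ σ ∈ ramGroup d.B d.Γ n then 1 else 0 := by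
  rw [Finset.sum_boole]
  have h1 : (Finset.univ.filter fun σ : d.Γ => σ ≠ 1 ∧ σ ∈ ramGroup d.B d.Γ n) =
      (Finset.univ.filter fun σ : d.Γ => σ ∈ ramGroup d.B d.Γ n).erase 1 := by
    ext σ
    simp
  rw [h1, Finset.card_erase_of_mem (by simp [one_mem])]
  congr 1
  rw [Nat.card_eq_fintype_card, Fintype.card_subtype]

open Classical in
lemma iQ_bot_eq_sum (n₀ : ℕ)
    (hn₀ : ∀ n, n₀ ≤ n → ramGroup d.B d.Γ n = ⊥) {σ : d.Γ} (hσ : σ ≠ 1) :
    d.iQ ⊥ σ = ∑ n ∈ Finset.range n₀, if σ ∈ ramGroup d.B d.Γ n then 1 else 0 := by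
  rw [d.iQ_bot, Finset.sum_boole]
  have h1 : {n : ℕ | σ ∈ ramGroup d.B d.Γ n} =
      ((Finset.range n₀).filter fun n => σ ∈ ramGroup d.B d.Γ n : Finset ℕ) := by
    ext n
    simp only [Finset.coe_filter, Finset.mem_range, Set.mem_setOf_eq]
    constructor
    · intro h
      refine ⟨?_, h⟩
      by_contra hlt
      rw [hn₀ n (not_lt.mp hlt), Subgroup.mem_bot] at h
      exact hσ h
    · exact fun h => h.2
  rw [h1, Nat.card_eq_fintype_card]
  simp

open Classical in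
lemma sum_card_ramGroup (hQ : RLQuotStatement) :
    ∑ᶠ n : ℕ, (Nat.card (ramGroup d.B d.Γ n) - 1) =
      ∑ᶠ (σ : d.Γ) (_ : σ ∈ ramGroup d.B d.Γ 0) (_ : σ ≠ 1), d.iQ ⊥ σ := by
  letI := Fintype.ofFinite d.Γ
  obtain ⟨n₀, hn₀⟩ := d.exists_ramGroup_eq_bot hQ
  have hL : ∑ᶠ n : ℕ, (Nat.card (ramGroup d.B d.Γ n) - 1) =
      ∑ n ∈ Finset.range n₀, (Nat.card (ramGroup d.B d.Γ n) - 1) := by
    apply finsum_eq_sum_of_support_subset
    intro n hn
    rw [Function.mem_support] at hn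
    rw [Finset.coe_range, Set.mem_Iio]
    by_contra hlt
    apply hn
    rw [hn₀ n (not_lt.mp hlt), Subgroup.card_bot, Nat.sub_self]
  have hR : ∑ᶠ (σ : d.Γ) (_ : σ ∈ ramGroup d.B d.Γ 0) (_ : σ ≠ 1), d.iQ ⊥ σ =
      ∑ σ : d.Γ, ∑ n ∈ Finset.range n₀, if σ ≠ 1 ∧ σ ∈ ramGroup d.B d.Γ n then 1 else 0 := by
    rw [finsum_eq_sum_of_fintype]
    apply Finset.sum_congr rfl
    intro σ _
    rw [finsum_eq_if, finsum_eq_if]
    by_cases h1 : σ = 1
    · simp [h1]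
    · simp only [ne_eq, h1, not_false_eq_true, if_true, true_and]
      by_cases h0 : σ ∈ ramGroup d.B d.Γ 0
      · rw [if_pos h0]
        exact d.iQ_bot_eq_sum n₀ hn₀ h1
      · rw [if_neg h0]
        symm
        apply Finset.sum_eq_zero
        intro n _
        rw [if_neg]
        exact fun h => h0 (d.ramGroup_anti (Nat.zero_le n) h)
  rw [hL, hR, Finset.sum_comm]
  apply Finset.sum_congr rfl
  intro n _
  exact d.card_ramGroup_sub_one n

/-! ### The different bound -/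

lemma maximalIdeal_pow_le_iff (a b : ℕ) :
    maximalIdeal d.B ^ a ≤ maximalIdeal d.B ^ b ↔ b ≤ a := by
  have hanti := Ideal.pow_right_strictAnti (maximalIdeal d.B)
    (IsDiscreteValuationRing.not_a_field d.B) (Ideal.IsPrime.ne_top inferInstance)
  exact hanti.le_iff_ge

lemma three_le_p : 3 ≤ d.p := by
  have h2 := d.hp.two_le
  have := d.hp2
  omega

lemma bridge_D_bound (hQ : RLQuotStatement) (hH : RLHilbertStatement) (M : ℕ)
    (hcard : Nat.card (ramGroup d.B d.Γ 0) = (d.p - 1) * M) (hpM : d.p ∣ M) :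
    (d.p - 1) * ∑ᶠ (σ : d.Γ) (_ : σ ∈ ramGroup d.B d.Γ 0) (_ : σ ≠ 1), d.iQ ⊥ σ
      ≤ d.p * Nat.card (ramGroup d.B d.Γ 0) := by
  obtain ⟨he', hdiff⟩ := hH d
  have hp3 := d.three_le_p
  have hpos : 0 < Nat.card (ramGroup d.B d.Γ 0) := Nat.card_pos
  have hM : 0 < M := by
    rcases Nat.eq_zero_or_pos M with h | h
    · rw [h, mul_zero] at hcard; omega
    · exact h
  have hMp : d.p ≤ M := Nat.le_of_dvd hM hpM
  have he : d.e = (d.p - 1) * M := he'.trans hcard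
  have hj1 : ¬ d.p ∣ M + 1 := by
    intro h
    have : d.p ∣ 1 := (Nat.dvd_add_right hpM).mp h
    have := Nat.le_of_dvd one_pos this
    omega
  have h2M : 2 * M ≤ (d.p - 1) * M := Nat.mul_le_mul_right M (by omega)
  have hj2 : M + 1 < d.e := by rw [he]; omega
  have hj3 : d.e < (M + 1) * (d.p - 1) := by
    rw [he, add_mul, one_mul, mul_comm]; omega
  have hdvd := d.hD (M + 1) hj1 hj2 hj3
  rw [d.he, Nat.add_sub_cancel, ← pow_add, hdiff, Ideal.dvd_iff_le,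
    d.maximalIdeal_pow_le_iff] at hdvd
  rw [← d.sum_card_ramGroup hQ, hcard]
  calc (d.p - 1) * ∑ᶠ n : ℕ, (Nat.card (ramGroup d.B d.Γ n) - 1)
      ≤ (d.p - 1) * (d.e + M) := Nat.mul_le_mul_left _ hdvd
    _ = d.p * ((d.p - 1) * M) := by
        rw [he]
        obtain ⟨q, hq⟩ : ∃ q, d.p = q + 1 := ⟨d.p - 1, by omega⟩
        rw [hq, Nat.add_sub_cancel]
        ring

/-! ### The residue characteristic and tame inertia -/

lemma natCast_p_mem (hH : RLHilbertStatement) : (d.p : d.B) ∈ maximalIdeal d.B := by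
  obtain ⟨he', -⟩ := hH d
  have hpos : 0 < Nat.card (ramGroup d.B d.Γ 0) := Nat.card_pos
  have h1 : (d.p : d.B) ∈ Ideal.span {(d.p : d.B)} := Ideal.mem_span_singleton_self _
  rw [d.he] at h1
  exact Ideal.pow_le_self (by omega) h1

lemma charP_residue (hH : RLHilbertStatement) : CharP (ResidueField d.B) d.p := by
  rw [CharP.charP_iff_prime_eq_zero d.hp]
  have h1 : residue d.B (d.p : d.B) = 0 := (residue_eq_zero_iff _).mpr (d.natCast_p_mem hH)
  rwa [map_natCast] at h1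

lemma pow_p_eq_one (hH : RLHilbertStatement) {x : ResidueField d.B} (hx : x ^ d.p = 1) :
    x = 1 := by
  haveI := d.charP_residue hH
  haveI : Fact d.p.Prime := ⟨d.hp⟩
  have h1 : (x - 1) ^ d.p = 0 := by
    rw [sub_pow_char, hx, one_pow, sub_self]
  exact sub_eq_zero.mp (pow_eq_zero_iff (d.hp.ne_zero) |>.mp h1)

lemma bridge_tame_no_p (hQ : RLQuotStatement) (hH : RLHilbertStatement) {τ₀ φ : d.Γ}
    {μ : ResidueField d.B} (hT : d.TameData τ₀ φ μ) :
    ∀ σ ∈ ramGroup d.B d.Γ 0, σ ^ d.p ∈ ramGroup d.B d.Γ 1 → σ ∈ ramGroup d.B d.Γ 1 := by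
  intro σ hσ hσp
  obtain ⟨-, hgen, hμ, -⟩ := hT
  obtain ⟨j, hj⟩ := hgen σ hσ
  haveI := d.ramGroup_normal hQ 1
  have hq : (QuotientGroup.mk σ : d.Γ ⧸ ramGroup d.B d.Γ 1) = QuotientGroup.mk (τ₀ ^ j) := by
    rw [QuotientGroup.eq]
    have h2 : σ⁻¹ * (σ * (τ₀ ^ j)⁻¹)⁻¹ * σ⁻¹⁻¹ ∈ ramGroup d.B d.Γ 1 :=
      Subgroup.Normal.conj_mem inferInstance _ (inv_mem hj) σ⁻¹
    have h3 : σ⁻¹ * (σ * (τ₀ ^ j)⁻¹)⁻¹ * σ⁻¹⁻¹ = σ⁻¹ * τ₀ ^ j := by group
    rwa [h3] at h2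
  have h4 : (QuotientGroup.mk (τ₀ ^ (j * d.p)) : d.Γ ⧸ ramGroup d.B d.Γ 1) = 1 := by
    rw [pow_mul, QuotientGroup.mk_pow, ← hq, ← QuotientGroup.mk_pow]
    exact (QuotientGroup.eq_one_iff _).mpr hσp
  have h5 : τ₀ ^ (j * d.p) ∈ ramGroup d.B d.Γ 1 := (QuotientGroup.eq_one_iff _).mp h4
  have h6 : μ ^ j = 1 := by
    apply d.pow_p_eq_one hH
    rw [← pow_mul]
    exact (hμ _).mp h5
  have h7 : τ₀ ^ j ∈ ramGroup d.B d.Γ 1 := (hμ j).mpr h6
  have : σ = (σ * (τ₀ ^ j)⁻¹) * τ₀ ^ j := by group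
  rw [this]
  exact mul_mem hj h7

end RCDatum

end Fermat.Agent.S56.FL

end
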