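import Fermat.Agent.S56.FL.Spec
import Fermat.Agent.S56.H134.FLDMain

/-!
# Row S56 / W-FLAT-SS: `DiffCoreStatement` (verbatim)                    (helper374)

Adapter: the frozen `FL.DiffCoreStatement` from helper134's core
`H134.FLD.val_derivative_le_of_algEquiv` (Eisenstein perturbation).
-/

set_option autoImplicit false
set_option linter.style.haveILetI false

open Polynomial IsLocalRing

noncomputable section

namespace Fermat.Agent.S56.FL.H374

open Fermat.Agent.S56.H134.FLD

/-- In a discrete valuation ring, `(x) = 𝔪 ^ a` means `v(x) = a`. -/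
theorem addVal_eq_of_span_eq_pow {A : Type*} [CommRing A] [IsDomain A]
    [IsDiscreteValuationRing A] (x : A) (a : ℕ)
    (h : Ideal.span {x} = maximalIdeal A ^ a) :
    IsDiscreteValuationRing.addVal A x = a := by
  obtain ⟨ϖ, hϖ⟩ := IsDiscreteValuationRing.exists_irreducible A
  rw [hϖ.maximalIdeal_eq, Ideal.span_singleton_pow, Ideal.span_singleton_eq_span_singleton] at h
  obtain ⟨u, hu⟩ := h.symm
  rw [← hu, IsDiscreteValuationRing.addVal_mul, IsDiscreteValuationRing.addVal_pow,
    IsDiscreteValuationRing.addVal_uniformizer hϖ, (IsDiscreteValuationRing.addVal_eq_zero_iff).2 u.isUnit]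
  simp

/-- **DCORE**, verbatim. -/
theorem diffCore : Fermat.Agent.S56.FL.DiffCoreStatement := by
  intro p _ A _ _ _ _ a ha hspan G e j hmon hdeg heis hpj hj0 hje hE
  obtain ⟨E⟩ := hE
  have hp : p.Prime := Fact.out
  subst hdeg
  have hG : IsEis G := ⟨hmon, heis, by omega⟩
  have hpA : (p : A) ∈ maximalIdeal A := by
    have h1 : (p : A) ∈ Ideal.span {(p : A)} := Ideal.mem_span_singleton_self _
    rw [hspan] at h1
    exact Ideal.pow_le_self ha.ne' h1
  have heK : IsDiscreteValuationRing.addVal A (p : A) = a := addVal_eq_of_span_eq_pow _ _ hspan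
  have h := val_derivative_le_of_algEquiv hG hp hpA heK hj0 hje hpj E
  rw [← hG.val_le_iff_dvd, hG.val_root_pow]
  have hN : G.natDegree * a + j - 1 = G.natDegree * a + (j - 1) := by omega
  rw [hN]
  exact h

end Fermat.Agent.S56.FL.H374

end
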