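import Fermat.Agent.S56.FL.Assemble
import Fermat.Agent.S56.H102.RLHilbert

/-!
# Row S56 — wall LOC-FLAT, supersingular half: CLOSED (sub-architect helper426)

    flatSSMain : FL.FlatSSStatement
    locFlatP_of_flatO : FL.FlatOStatement → H716.LocFlatPStatement

`FlatSSStatement`: when `ρ̄|_{D_P}` is irreducible, any two flat tangent cocycles are linearly
dependent modulo coboundaries on `D_P`.  Sorry-free; nothing but the three standard axioms.

Leaves: `FL.localModel` (helper434; INT helper914, STRUCT helper287/176, ROOT helper116/254/434),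
`H846.flCnt` (abstract count), `H769.flCyc`, `H194.rlCyc`, `H194.rcTame_of`, `H334.rlWild/rlComm/
rlTame/rlTheta/rlQuot`, `H102.RLQF.rlQuotFormula`, `H102.RLH.rlHilbert`, `H384.rcShape`,
`H384`/`FL.rcInfl`; glue `FL.flatSS_of`, `FL.ramCount_of_cnt`, `FL.locFlatP_of` (helper426).
-/

set_option autoImplicit false

namespace Fermat.Agent.S56.FL

/-- **`RamCountStatement`**, unconditional. -/
theorem ramCountMain : RamCountStatement :=
  ramCount_of_hilbert H102.RLH.rlHilbert

/-- **`FlatSSStatement`**, unconditional. -/
theorem flatSSMain : FlatSSStatement :=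
  flatSS_of_hilbert H102.RLH.rlHilbert

/-- The wall LOC-FLAT from its ordinary half. -/
theorem locFlatP_of_flatO (hO : FlatOStatement) : H716.LocFlatPStatement :=
  locFlatP_of flatSSMain hO

end Fermat.Agent.S56.FL
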