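import Fermat.Agent.S56.FL.LMSpec

/-!
# Row S56 — wall W-FLAT-SS — glue
`IntStatement → StructStatement → RootStatement → LocalModelStatement`  (helper434).  Sorry-free.
-/

set_option autoImplicit false

open Polynomial IsLocalRing

noncomputable section

namespace Fermat.Agent.S56.FL

open Fermat.Agent.S56 Fermat.Agent.S56.H716

/-- A unit of `B` maps to an element of valuation `1` when `ι` lands in `P`. -/
theorem valuation_eq_one_of_isUnit {B : Type} [CommRing B] (P : ValuationSubring Qb)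
    (ι : B →+* Qb) (hι : ∀ b, ι b ∈ P) {u : B} (hu : IsUnit u) : P.valuation (ι u) = 1 := by
  obtain ⟨w, hw⟩ := hu.exists_right_inv
  have h1 : P.valuation (ι u) ≤ 1 := (P.valuation_le_one_iff _).mpr (hι u)
  have h2 : P.valuation (ι w) ≤ 1 := (P.valuation_le_one_iff _).mpr (hι w)
  have h3 : P.valuation (ι u) * P.valuation (ι w) = 1 := by
    rw [← map_mul, ← map_mul, hw, map_one, map_one]
  refine le_antisymm h1 ?_
  calc (1 : P.ValueGroup) = P.valuation (ι u) * P.valuation (ι w) := h3.symm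
    _ ≤ P.valuation (ι u) * 1 := mul_le_mul' le_rfl h2
    _ = P.valuation (ι u) := mul_one _

/-- Glue: the concrete model, the structure theory and the root statement give the local model
with its different bound. -/
theorem localModel_of (hInt : IntStatement) (hStruct : StructStatement) (hRoot : RootStatement) :
    LocalModelStatement := by
  intro k _ _ p _ hp2 hchar ρbar hdet P hP c₁ c₂ h₁ h₂ ρ₁ ρ₂ hl₁ hl₂ hf₁ hf₂
  obtain ⟨A, B, iA1, iA2, iA3, iB1, iB2, iB3, iB4, iAB1, iAB2, iAB3, Γ, iΓ1, iΓ2, iΓ3, iΓ4, iΓ5,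
    iΓ6, π, ζ, e, ι, hπ, hker, hA, hκ, hζ, hcyc, he, hιinj, hιrange, hequiv⟩ :=
    hInt k p hp2 hchar ρbar hdet P hP c₁ c₂ h₁ h₂ ρ₁ ρ₂ hl₁ hl₂ hf₁ hf₂
  refine ⟨A, B, iA1, iA2, iA3, iB1, iB2, iB3, iB4, iAB1, iAB2, iAB3, Γ, iΓ1, iΓ2, iΓ3, iΓ4, iΓ5,
    iΓ6, π, ζ, e, hπ, hker, hA, hκ, hζ, hcyc, he, ?_⟩
  obtain ⟨B', ϖ, G, hAB', hB'val, hϖ, hrep, hGm, hGdeg, hGcoef, hGp, hG0, hGroot, hbound⟩ :=
    hStruct p A B Γ hA hκ e he
  intro j hpj hje hej
  have hj0 : 0 < j := by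
    rcases Nat.eq_zero_or_pos j with h | h
    · subst h; simp at hej
    · exact h
  refine hbound j hpj hj0 hje ?_
  -- range of `ι`
  have hιmem : ∀ b : B, ι b ∈ levelSet ρbar c₁ c₂ P := fun b => hιrange ▸ Set.mem_range_self b
  have hιP : ∀ b : B, ι b ∈ P := fun b => (hιmem b).1
  have hιp : ι (p : B) = (p : Qb) := map_natCast ι p
  -- the root in `ℚ̄`
  obtain ⟨ϖ', hϖ'mem, hϖ'root⟩ := hRoot k p hp2 hchar ρbar P hP c₁ c₂ h₁ h₂ ρ₁ ρ₂ hl₁ hl₂ hf₁ hf₂
    (B'.map ι) (ι ϖ) e (G.map ι)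
    (by
      intro x hxP hxfix
      have hx : x ∈ levelSet ρbar c₁ c₂ P := ⟨hxP, fun σ hσ _ _ _ => hxfix σ hσ⟩
      rw [← hιrange] at hx
      obtain ⟨b, rfl⟩ := hx
      have hbfix : ∀ γ : Γ, γ • b = b := by
        intro γ
        obtain ⟨σ, rfl⟩ := hπ γ
        apply hιinj
        rw [hequiv]
        exact hxfix σ σ.2
      obtain ⟨a, rfl⟩ := Algebra.IsInvariant.isInvariant (A := A) (G := Γ) b hbfix
      exact Subring.mem_map.mpr ⟨_, hAB' a, rfl⟩)
    (by
      intro b hb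
      obtain ⟨b₀, -, rfl⟩ := Subring.mem_map.mp hb
      exact hιmem b₀)
    (by
      intro b hb hb0
      obtain ⟨b₀, hb₀, rfl⟩ := Subring.mem_map.mp hb
      have hb₀0 : b₀ ≠ 0 := by
        rintro rfl
        exact hb0 (map_zero ι)
      obtain ⟨n, u, -, hu, rfl⟩ := hB'val b₀ hb₀ hb₀0
      refine ⟨n, ?_⟩
      rw [map_mul, map_pow, hιp, map_mul, map_pow, valuation_eq_one_of_isUnit P ι hιP hu,
        mul_one])
    (hιmem ϖ)
    (by
      have h1 : Ideal.span {(p : B)} = Ideal.span {ϖ ^ e} := by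
        rw [he, hϖ, Ideal.span_singleton_pow]
      obtain ⟨u, hu⟩ := (Ideal.span_singleton_eq_span_singleton.mp h1)
      have : P.valuation (ι ((p : B) * (u : B))) = P.valuation (ι (ϖ ^ e)) := by rw [hu]
      rw [map_mul, map_mul, hιp, valuation_eq_one_of_isUnit P ι hιP u.isUnit, mul_one,
        map_pow, map_pow] at this
      exact this.symm)
    (by
      intro b hb
      rw [← hιrange] at hb
      obtain ⟨b₀, rfl⟩ := hb
      obtain ⟨a, ha, hsum⟩ := hrep b₀
      refine ⟨fun i => ι (a i), fun i => Subring.mem_map.mpr ⟨_, ha i, rfl⟩, ?_⟩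
      rw [hsum, map_sum]
      refine Finset.sum_congr rfl fun i _ => ?_
      rw [map_mul, map_pow])
    (hGm.map ι)
    (by rw [hGm.natDegree_map, hGdeg])
    (by
      intro i
      rw [coeff_map]
      exact Subring.mem_map.mpr ⟨_, hGcoef i, rfl⟩)
    (by
      intro i hi
      obtain ⟨b, hb⟩ := Ideal.mem_span_singleton'.mp (hGp i hi)
      rw [coeff_map, ← hb, map_mul, map_mul, hιp]
      calc P.valuation (ι b) * P.valuation (p : Qb) ≤ 1 * P.valuation (p : Qb) :=
            mul_le_mul' ((P.valuation_le_one_iff _).mpr (hιP b)) le_rfl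
        _ = P.valuation (p : Qb) := one_mul _)
    (by
      obtain ⟨u, hu, hG0u⟩ := hG0
      rw [coeff_map, hG0u, map_mul, map_mul, hιp, valuation_eq_one_of_isUnit P ι hιP hu,
        mul_one])
    (by rw [eval_map, eval₂_at_apply, hGroot, map_zero])
    j hpj hj0 hje hej
  rw [← hιrange] at hϖ'mem
  obtain ⟨b', rfl⟩ := hϖ'mem
  refine ⟨b', hιinj ?_⟩
  rw [map_add, map_mul, map_pow, hιp, map_zero, ← hϖ'root, eval_map, eval₂_at_apply]

end Fermat.Agent.S56.FL

end
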