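import Fermat.Agent.S56.FL.Spec

/-!
# Row S56 — wall W-FLAT-SS — `LocalModelStatement`: FROZEN inner interface
(architect helper434; blueprint `coord/S56-LOCALMODEL-helper434.md` on `origin/helper434`)

    LocalModelStatement ⇐ IntStatement + StructStatement + RootStatement     (glue: `FL/LMGlue.lean`)
    RootStatement       ⇐ RationalityStatement                                (`ℚ̄`-side, Galois theory)

The model is the `ℚ̄`-side one: `A = P ∩ ℚ̄^{D_P}`, `B = P ∩ ℚ̄^{N}`, `N = {σ ∈ D_P | ρ̄ σ = 1, c₁ σ = 0,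
c₂ σ = 0}`, `Γ = D_P / N`.  No completion is used anywhere.

* `levelSet ρbar c₁ c₂ P` — the underlying set of `B` inside `ℚ̄`.
* `IntStatement` (INT; Prelude language): `A`, `B` are discrete valuation rings with all the
  instances of `LocalModelStatement`, i.e. everything EXCEPT the different bound, together with an
  embedding `ι : B → ℚ̄` with range `levelSet`, equivariant for `π : D_P → Γ`.
* `StructStatement` (STRUCT; pure algebra, Mathlib only): structure of a Galois extension `B/A`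
  of discrete valuation rings with `𝔪_A = (p)`, `κ_A = 𝔽_p`: the inertia-fixed subring `B'` has
  uniformizer `p`, `B = B'[ϖ]` with `ϖ` a root of an Eisenstein polynomial `G` of degree `e`, and if
  `G + p X^j` has a root in `B` (`p ∤ j`, `0 < j < e`) then `𝔇_{B/A} ∣ (p) 𝔪_B^{j-1}`.
* `RootStatement` (ROOT; `ℚ̄`-side, the only place where flatness is used): for every Eisenstein
  presentation `levelSet = B'[ϖ]` as above and every `j` with `p ∤ j`, `0 < j < e < j (p - 1)`,
  the polynomial `G + p X^j` has a root in `levelSet`.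
* `RationalityStatement` (Theorem A; Mathlib only): the bridge-free lifting lemma in the form
  "an automorphism fixing the values of an approximate ring homomorphism `η` fixes all points".

Nothing unproved in this file.
-/

set_option autoImplicit false

open Polynomial IsLocalRing

noncomputable section

namespace Fermat.Agent.S56.FL

open Fermat.Agent.S56 Fermat.Agent.S56.H716

/-- The underlying set of `B = P ∩ ℚ̄^N`, `N = {σ ∈ D_P | ρ̄ σ = 1, c₁ σ = 0, c₂ σ = 0}`. -/
def levelSet {k : Type} [Field k] (ρbar : ResidualGaloisRep k)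
    (c₁ c₂ : GQ → Module.End k ρbar.V) (P : ValuationSubring Qb) : Set Qb :=
  {x | x ∈ P ∧ ∀ σ ∈ P.decompositionSubgroup ℚ,
    ρbar.ρ σ = 1 → c₁ σ = 0 → c₂ σ = 0 → σ x = x}

/-- **Theorem A** (bridge-free lifting lemma, rationality form; Mathlib only).
`Ω` an algebraically closed field with a rank-one valuation `v`, integral on the image of `R`;
`H` a finite free commutative cocommutative `R`-bialgebra all of whose `Ω`-points are killed by
`p`; `T ⊆ Ω` a subring of integral elements containing the values of all points;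
`η : T → Ω` a ring homomorphism modulo `p γ` with `γ^(p-1) < |p|`, isometric modulo `γ`.
Then every valuation-preserving endomorphism `σ` of `Ω` which fixes `R` and the values of `η`
fixes all points of `H`. -/
def RationalityStatement : Prop :=
  ∀ (Ω : Type) [Field Ω] [IsAlgClosed Ω] (Γ₀ : Type) [LinearOrderedCommGroupWithZero Γ₀]
    (v : Valuation Ω Γ₀),
    (∀ x y : Γ₀, x < 1 → y ≠ 0 → ∃ n : ℕ, x ^ n ≤ y) →
    ∀ (R : Type) [CommRing R] [Algebra R Ω], (∀ r : R, v (algebraMap R Ω r) ≤ 1) →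
    ∀ (H : Type) [CommRing H] [Bialgebra R H] [Coalgebra.IsCocomm R H]
      [Module.Free R H] [Module.Finite R H] [Finite (H →ₐ[R] Ω)]
      (p : ℕ), p.Prime →
      (∀ x : WithConv (H →ₐ[R] Ω), x ^ p = 1) →
      ∀ (γ : Γ₀), γ ≠ 0 → γ ^ (p - 1) < v (p : Ω) →
      ∀ (T : Subring Ω), (∀ a ∈ T, v a ≤ 1) → (∀ (x : H →ₐ[R] Ω) (h : H), x h ∈ T) →
      ∀ (η : Ω → Ω),
        (∀ a ∈ T, v (η a) ≤ 1) →
        (∀ a ∈ T, ∀ b ∈ T, v (η (a + b) - (η a + η b)) ≤ v (p : Ω) * γ) →
        (∀ a ∈ T, ∀ b ∈ T, v (η (a * b) - η a * η b) ≤ v (p : Ω) * γ) →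
        (∀ r : R, v (η (algebraMap R Ω r) - algebraMap R Ω r) ≤ v (p : Ω) * γ) →
        (∀ a ∈ T, v (η a) ≤ γ → v a ≤ γ) →
        ∀ (σ : Ω →+* Ω), (∀ a, v (σ a) = v a) →
          (∀ r : R, σ (algebraMap R Ω r) = algebraMap R Ω r) →
          (∀ a ∈ T, σ (η a) = η a) →
          ∀ (x : H →ₐ[R] Ω) (h : H), σ (x h) = x h

/-- **ROOT** (`ℚ̄`-side; uses flatness through `RationalityStatement`).  Given an Eisenstein
presentation `levelSet = B'[ϖ]`, `G(ϖ) = 0`, every perturbation `G + p X^j` with `p ∤ j`,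
`0 < j < e < j (p - 1)` has a root in `levelSet`. -/
def RootStatement : Prop :=
  ∀ (k : Type) [Field k] [Finite k] (p : ℕ) [Fact p.Prime], p ≠ 2 → CharP k p →
    ∀ (ρbar : ResidualGaloisRep k) (P : ValuationSubring Qb), P.LiesOverPrime p →
      ∀ (c₁ c₂ : GQ → Module.End k ρbar.V), IsAdCocycle ρbar c₁ → IsAdCocycle ρbar c₂ →
        ∀ (ρ₁ ρ₂ : GaloisRepAdic (DualNumber k)), IsLiftOf ρbar c₁ ρ₁ → IsLiftOf ρbar c₂ ρ₂ →
          ρ₁.IsFlatAt p → ρ₂.IsFlatAt p →
          ∀ (B' : Subring Qb) (ϖ : Qb) (e : ℕ) (G : Qb[X]),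
            (∀ x ∈ P, (∀ σ ∈ P.decompositionSubgroup ℚ, σ x = x) → x ∈ B') →
            (∀ b ∈ B', b ∈ levelSet ρbar c₁ c₂ P) →
            (∀ b ∈ B', b ≠ 0 → ∃ n : ℕ, P.valuation b = P.valuation (p : Qb) ^ n) →
            ϖ ∈ levelSet ρbar c₁ c₂ P →
            P.valuation ϖ ^ e = P.valuation (p : Qb) →
            (∀ b ∈ levelSet ρbar c₁ c₂ P,
              ∃ a : Fin e → Qb, (∀ i, a i ∈ B') ∧ b = ∑ i, a i * ϖ ^ (i : ℕ)) →
            G.Monic → G.natDegree = e → (∀ i, G.coeff i ∈ B') →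
            (∀ i < e, P.valuation (G.coeff i) ≤ P.valuation (p : Qb)) →
            P.valuation (G.coeff 0) = P.valuation (p : Qb) →
            G.eval ϖ = 0 →
            ∀ j : ℕ, ¬ p ∣ j → 0 < j → j < e → e < j * (p - 1) →
              ∃ ϖ' ∈ levelSet ρbar c₁ c₂ P, G.eval ϖ' + (p : Qb) * ϖ' ^ j = 0

/-- **STRUCT** (pure algebra, Mathlib only).  Structure of a Galois extension `B/A` of discrete
valuation rings of characteristic `0` with `𝔪_A = (p)` and residue field `𝔽_p`, and the different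
bound from a root of the perturbed Eisenstein polynomial. -/
def StructStatement : Prop :=
  ∀ (p : ℕ) [Fact p.Prime]
    (A B : Type) [CommRing A] [IsDomain A] [IsDiscreteValuationRing A]
    [CommRing B] [IsDomain B] [IsDiscreteValuationRing B] [CharZero B]
    [Algebra A B] [Module.Finite A B] [FaithfulSMul A B]
    (Γ : Type) [Group Γ] [Finite Γ] [MulSemiringAction Γ B] [SMulCommClass Γ A B]
    [Algebra.IsInvariant A B Γ] [FaithfulSMul Γ B],
    maximalIdeal A = Ideal.span {(p : A)} →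
    Nat.card (ResidueField A) = p →
    ∀ e : ℕ, Ideal.span {(p : B)} = maximalIdeal B ^ e →
    ∃ (B' : Subring B) (ϖ : B) (G : B[X]),
      (∀ a : A, algebraMap A B a ∈ B') ∧
      (∀ b ∈ B', b ≠ 0 → ∃ (n : ℕ) (u : B), u ∈ B' ∧ IsUnit u ∧ b = (p : B) ^ n * u) ∧
      maximalIdeal B = Ideal.span {ϖ} ∧
      (∀ b : B, ∃ a : Fin e → B, (∀ i, a i ∈ B') ∧ b = ∑ i, a i * ϖ ^ (i : ℕ)) ∧
      G.Monic ∧ G.natDegree = e ∧ (∀ i, G.coeff i ∈ B') ∧
      (∀ i < e, G.coeff i ∈ Ideal.span {(p : B)}) ∧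
      (∃ u : B, IsUnit u ∧ G.coeff 0 = (p : B) * u) ∧
      G.eval ϖ = 0 ∧
      ∀ j : ℕ, ¬ p ∣ j → 0 < j → j < e →
        (∃ ϖ' : B, G.eval ϖ' + (p : B) * ϖ' ^ j = 0) →
        differentIdeal A B ∣ Ideal.span {(p : B)} * maximalIdeal B ^ (j - 1)

/-- **INT** (`ℚ̄`-side, Prelude language).  Everything in `LocalModelStatement` except the
different bound, for the concrete model `A = P ∩ ℚ̄^{D_P}`, `B ≅ levelSet` (via `ι`), `Γ = D_P / N`. -/
def IntStatement : Prop :=
  ∀ (k : Type) [Field k] [Finite k] (p : ℕ) [Fact p.Prime], p ≠ 2 → CharP k p →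
    ∀ (ρbar : ResidualGaloisRep k),
      (∀ (σ : GQ) (a : ℕ), IsCycExp p σ a → LinearMap.det (ρbar.ρ σ) = (a : k)) →
      ∀ (P : ValuationSubring Qb), P.LiesOverPrime p →
        ∀ (c₁ c₂ : GQ → Module.End k ρbar.V), IsAdCocycle ρbar c₁ → IsAdCocycle ρbar c₂ →
          ∀ (ρ₁ ρ₂ : GaloisRepAdic (DualNumber k)), IsLiftOf ρbar c₁ ρ₁ → IsLiftOf ρbar c₂ ρ₂ →
            ρ₁.IsFlatAt p → ρ₂.IsFlatAt p →
            ∃ (A B : Type) (_ : CommRing A) (_ : IsDomain A) (_ : IsDiscreteValuationRing A)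
              (_ : CommRing B) (_ : IsDomain B) (_ : IsDiscreteValuationRing B) (_ : CharZero B)
              (_ : Algebra A B) (_ : Module.Finite A B) (_ : FaithfulSMul A B)
              (Γ : Type) (_ : Group Γ) (_ : Finite Γ) (_ : MulSemiringAction Γ B)
              (_ : SMulCommClass Γ A B) (_ : Algebra.IsInvariant A B Γ) (_ : FaithfulSMul Γ B)
              (π : P.decompositionSubgroup ℚ →* Γ) (ζ : B) (e : ℕ) (ι : B →+* Qb),
              Function.Surjective π ∧
              (∀ σ : P.decompositionSubgroup ℚ,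
                π σ = 1 ↔ (ρbar.ρ (σ : GQ) = 1 ∧ c₁ (σ : GQ) = 0 ∧ c₂ (σ : GQ) = 0)) ∧
              maximalIdeal A = Ideal.span {(p : A)} ∧
              Nat.card (ResidueField A) = p ∧
              IsPrimitiveRoot ζ p ∧
              (∀ (σ : P.decompositionSubgroup ℚ) (a : ℕ),
                π σ • ζ = ζ ^ a → IsCycExp p (σ : GQ) a) ∧
              Ideal.span {(p : B)} = maximalIdeal B ^ e ∧
              Function.Injective ι ∧
              Set.range ι = levelSet ρbar c₁ c₂ P ∧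
              ∀ (σ : P.decompositionSubgroup ℚ) (b : B), ι (π σ • b) = (σ : GQ) (ι b)

end Fermat.Agent.S56.FL

end
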