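import Fermat.Agent.S56.FL.RamSpec

/-!
# Row S56 — wall W-FLAT-SS, piece RAMCOUNT: glue (helper426).  Sorry-free.

`ramCount_of : RCTame → RCInfl → RCWild → RCBreak → RCLine → RamCountStatement`.
-/

set_option autoImplicit false

open Polynomial IsLocalRing

noncomputable section

namespace Fermat.Agent.S56.FL

/-- Glue for the ramification count. -/
theorem ramCount_of (hT : RCTameStatement) (hI : RCInflStatement) (hW : RCWildStatement)
    (hB : RCBreakStatement) (hL : RCLineStatement) : RamCountStatement := by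
  intro p hpf hp2 A B _ _ _ _ _ _ _ _ _ _ Γ _ _ _ _ _ _ hA hκ e he hD k _ _ hchar V _ _ _ hV ρ
    hirr hsplit ζ hζ hdet c₁ c₂ hc₁ hc₂ htr₁ htr₂ hfaith
  let d : RCDatum :=
    { p := p, A := A, B := B, Γ := Γ, k := k, V := V, hp := hpf.out, hp2 := hp2, hA := hA,
      hκ := hκ, e := e, he := he, hD := hD, hchar := hchar, hV := hV, ρ := ρ, hirr := hirr,
      hsplit := hsplit, ζ := ζ, hζ := hζ, hdet := hdet, c₁ := c₁, c₂ := c₂, hc₁ := hc₁,
      hc₂ := hc₂, htr₁ := htr₁, htr₂ := htr₂, hfaith := hfaith }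
  have hT' : ¬ p ∣ ρ.ker.index := hT d
  have hW' : d.KerEqWild := hW d hT'
  obtain ⟨a₁, a₂, ha, hker⟩ := hL d hT' hW' (hB d hT' hW')
  have := hchar
  obtain ⟨m, hm⟩ := hI p Γ k V ρ hT' (fun σ => a₁ • c₁ σ + a₂ • c₂ σ)
    (by
      intro σ τ
      simp only [hc₁, hc₂, smul_add, mul_add, add_mul, mul_smul_comm, smul_mul_assoc]
      abel)
    (fun σ hσ => hker σ hσ)
  exact ⟨a₁, a₂, ha, m, hm⟩

end Fermat.Agent.S56.FL

end
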