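import Fermat.Agent.S56.FL.RamSpec

/-!
# Row S56 — W-FLAT-SS, piece FL-RAM: FROZEN statements of the ramification lemmas
(sub-architect helper426).  Pure algebra, Mathlib only.  Nothing unproved in this file.

These are the inputs that the abstract count `H846.FLCntStatement` needs from ramification theory,
stated for an `RCDatum` `d` (only `A ⊂ B`, `Γ`, `p`, `hA`, `hκ`, `e`, `he`, `hD` are used).
Notation: `𝔪 = maximalIdeal d.B`, `κ = ResidueField d.B`, `Γ_n = ramGroup d.B d.Γ n`.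

For a normal subgroup `N ≤ Γ₁` the ring `B^N` is a discrete valuation ring, totally ramified of
degree `|N|` under `B`; so for `y ∈ B^N`: `v_{B^N}(y) ≥ j ↔ y ∈ 𝔪 ^ (|N| j)`.  We therefore define
the ramification groups of `Γ` acting on `B^N` WITHOUT leaving `B`:
`qRam d N n = {σ | ∀ x ∈ B^N, σ x - x ∈ 𝔪 ^ (|N| (n + 1))}`   (`qRam d ⊥ n = Γ_n`).

* `RLWildStatement`   : `Γ₁` is a `p`-group.
* `RLCommStatement`   : `[Γ, Γ] ≤ Γ₀`.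
* `RLTameStatement`   : tame generator `τ₀`, Frobenius lift `φ`, the tame character `μ = θ₀(τ₀)`.
* `RLThetaStatement`  : the maps `θ_n : Γ_n / Γ_{n+1} ↪ κ` (`n ≥ 1`) with their equivariance.
* `RLQuotStatement`   : the groups `qRam d N n` (normal subgroups, comparison with `Γ₀, Γ₁`,
  commutator rule, separatedness).
* `RLQuotFormulaStatement` : Serre, *Local Fields* IV §1 Prop. 3.
* `RLHilbertStatement`: `e = |Γ₀|` and Hilbert's formula `𝔇_{B/A} = 𝔪 ^ (∑_n (|Γ_n| - 1))`.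
-/

set_option autoImplicit false

open Polynomial IsLocalRing

noncomputable section

namespace Fermat.Agent.S56.FL

namespace RCDatum

/-- The ramification groups of `Γ` acting on `B^N`, as subsets of `Γ`, defined inside `B`. -/
def qRam (d : RCDatum) (N : Subgroup d.Γ) (n : ℕ) : Set d.Γ :=
  {σ | ∀ x : d.B, (∀ ν ∈ N, ν • x = x) → σ • x - x ∈ maximalIdeal d.B ^ (Nat.card N * (n + 1))}

/-- `N` is a normal subgroup of `Γ` contained in the wild inertia group `Γ₁`. -/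
def IsWildNormal (d : RCDatum) (N : Subgroup d.Γ) : Prop :=
  N.Normal ∧ N ≤ ramGroup d.B d.Γ 1

end RCDatum

/-- (RL-A) the wild inertia group is a `p`-group. -/
def RLWildStatement : Prop :=
  ∀ d : RCDatum, IsPGroup d.p (ramGroup d.B d.Γ 1)

/-- (RL-B) commutators lie in the inertia group. -/
def RLCommStatement : Prop :=
  ∀ d : RCDatum, ∀ g h : d.Γ, g * h * g⁻¹ * h⁻¹ ∈ ramGroup d.B d.Γ 0

/-- (RL-C) tame inertia is cyclic, generated by `τ₀`, with faithful tame character `μ = θ₀(τ₀)`;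
`Γ / Γ₀` is generated by a Frobenius lift `φ`, and `φ τ₀ φ⁻¹ ≡ τ₀ ^ p` modulo `Γ₁`. -/
def RLTameStatement : Prop :=
  ∀ d : RCDatum, ∃ τ₀ ∈ ramGroup d.B d.Γ 0, ∃ φ : d.Γ, ∃ μ : ResidueField d.B,
    (∀ σ ∈ ramGroup d.B d.Γ 0, ∃ j : ℕ, σ * (τ₀ ^ j)⁻¹ ∈ ramGroup d.B d.Γ 1) ∧
    (∀ j : ℕ, τ₀ ^ j ∈ ramGroup d.B d.Γ 1 ↔ μ ^ j = 1) ∧
    (∀ ϖ : d.B, Irreducible ϖ → ∀ u : d.B, τ₀ • ϖ = u * ϖ → residue d.B u = μ) ∧
    (∀ x : d.B, residue d.B (φ • x) = residue d.B x ^ d.p) ∧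
    (∀ σ : d.Γ, ∃ j : ℕ, σ * (φ ^ j)⁻¹ ∈ ramGroup d.B d.Γ 0) ∧
    φ * τ₀ * φ⁻¹ * (τ₀ ^ d.p)⁻¹ ∈ ramGroup d.B d.Γ 1

/-- (RL-θ) for a uniformizer `ϖ` and `n ≥ 1` the map `θ_n(σ) = ((σ ϖ - ϖ) / ϖ ^ (n + 1)) mod 𝔪` on
`Γ_n`: additive, with kernel `Γ_{n+1}`, and `θ_n(g σ g⁻¹) = ū_g ^ n · ḡ(θ_n(σ))` where
`g ϖ = u_g ϖ`. -/
def RLThetaStatement : Prop :=
  ∀ d : RCDatum, ∀ ϖ : d.B, Irreducible ϖ → ∀ n : ℕ, 1 ≤ n →
    ∃ θ : d.Γ → ResidueField d.B,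
      (∀ σ ∈ ramGroup d.B d.Γ n, ∀ a : d.B,
        σ • ϖ - ϖ = a * ϖ ^ (n + 1) → θ σ = residue d.B a) ∧
      (∀ σ ∈ ramGroup d.B d.Γ n, ∀ τ ∈ ramGroup d.B d.Γ n, θ (σ * τ) = θ σ + θ τ) ∧
      (∀ σ ∈ ramGroup d.B d.Γ n, θ σ = 0 → σ ∈ ramGroup d.B d.Γ (n + 1)) ∧
      (∀ σ ∈ ramGroup d.B d.Γ n, ∀ (g : d.Γ) (u a : d.B), g • ϖ = u * ϖ →
        residue d.B a = θ σ → θ (g * σ * g⁻¹) = residue d.B u ^ n * residue d.B (g • a))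

/-- (RL-Q) the ramification groups of the quotients `Γ / N`, `N ≤ Γ₁` normal. -/
def RLQuotStatement : Prop :=
  ∀ d : RCDatum, ∀ N : Subgroup d.Γ, d.IsWildNormal N →
    -- subgroups, normal
    (∀ n, ∃ F : Subgroup d.Γ, F.Normal ∧ (F : Set d.Γ) = d.qRam N n) ∧
    -- comparison with the inertia and wild inertia groups of `Γ`
    (∀ σ ∈ ramGroup d.B d.Γ 0, σ ∈ d.qRam N 0) ∧
    (∀ σ ∈ ramGroup d.B d.Γ 1, σ ∈ d.qRam N 1) ∧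
    (∀ σ ∈ ramGroup d.B d.Γ 0, σ ∈ d.qRam N 1 → σ ∈ ramGroup d.B d.Γ 1) ∧
    -- separatedness
    (∀ σ : d.Γ, σ ∉ N → ∃ n, σ ∉ d.qRam N n) ∧
    -- commutator rule
    (∀ n, 1 ≤ n → ∀ σ ∈ d.qRam N n, σ ∉ d.qRam N (n + 1) → ∀ τ ∈ ramGroup d.B d.Γ 0,
      (τ * σ * τ⁻¹ * σ⁻¹ ∈ d.qRam N (n + 1) ↔ τ ^ n ∈ d.qRam N 1))

/-- (RL-QF) the quotient formula: for `σ ∉ N`,
`∑_{w ∈ N} i_Γ(σ w) = |N| · i_{Γ/N}(σ N)`, where `i_Γ(τ) = #{n | τ ∈ Γ_n}` and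
`i_{Γ/N}(σ N) = #{n | σ ∈ qRam d N n}`. -/
def RLQuotFormulaStatement : Prop :=
  ∀ d : RCDatum, ∀ N : Subgroup d.Γ, d.IsWildNormal N → ∀ σ : d.Γ, σ ∉ N →
    ∑ᶠ (w : d.Γ) (_ : w ∈ N), Nat.card {n : ℕ | σ * w ∈ ramGroup d.B d.Γ n} =
      Nat.card N * Nat.card {n : ℕ | σ ∈ d.qRam N n}

/-- (RL-H) `e(B/A) = |Γ₀|` and Hilbert's formula for the different. -/
def RLHilbertStatement : Prop :=
  ∀ d : RCDatum, d.e = Nat.card (ramGroup d.B d.Γ 0) ∧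
    differentIdeal d.A d.B =
      maximalIdeal d.B ^ (∑ᶠ n : ℕ, (Nat.card (ramGroup d.B d.Γ n) - 1))

end Fermat.Agent.S56.FL

end
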