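import Fermat.Agent.S56.FL.Spec

/-!
# Row S56 — wall W-FLAT-SS, piece RAMCOUNT: FROZEN inner interface (sub-architect helper426)

`RamCountStatement ⇐ RCTame + RCInfl + RCWild + RCBreak + RCLine`   (glue: `FL/RamGlue.lean`)

Everything here is pure algebra (Mathlib only).  Blueprint: `coord/S56-FLATSS-helper426.md` §3.

`RCDatum` bundles the hypotheses of `RamCountStatement`: discrete valuation rings `A ⊂ B` of
characteristic `0`, `A` with uniformizer `p` and residue field `𝔽_p`, `B/A` Galois with group `Γ`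
and satisfying the different bound of Theorem D; an irreducible representation `ρ : Γ → GL₂(k)`
(`k` finite of characteristic `p`, eigenvalues in `k`, cyclotomic determinant) and two trace-zero
`Ad ρ`-cocycles `c₁, c₂` such that `(ρ, c₁, c₂)` is faithful.  Notation: `W = ker ρ`,
`Γ_n = ramGroup B Γ n` (lower numbering; `Γ₀` = inertia, `Γ₁` = wild inertia).

* `RCTameStatement` (SS):   `p ∤ [Γ : ker ρ]`.
* `RCInflStatement` (IR):   if `p ∤ [Γ : ker ρ]`, a cocycle vanishing on `W` is a coboundary.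
* `RCWildStatement` (C1):   `W = Γ₁` (given `p ∤ [Γ : ker ρ]`).
* `RCBreakStatement` (C2 + C3): `W` has a single break: `Γ_n = Γ₁`, `Γ_{n+1} = 1` for some `n ≥ 1`;
  if `W ≠ 1` then `n = p - 1` and the tame ramification index `|Γ₀/Γ₁|` is `p² - 1`.
* `RCLineStatement` (C4):   if `W = Γ₁` has a single break then `c₁|_W, c₂|_W` are linearly dependent.

Nothing unproved in this file.
-/

set_option autoImplicit false

open Polynomial IsLocalRing

noncomputable section

namespace Fermat.Agent.S56.FL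

/-- The `n`-th ramification group (lower numbering) of a group `Γ` acting on a local ring `B`:
`Γ_n = {σ | ∀ x, σ x - x ∈ 𝔪_B ^ (n + 1)}`. -/
def ramGroup (B Γ : Type) [CommRing B] [IsLocalRing B] [Group Γ] [MulSemiringAction Γ B]
    (n : ℕ) : Subgroup Γ :=
  (maximalIdeal B ^ (n + 1)).toAddSubgroup.inertia Γ

lemma mem_ramGroup {B Γ : Type} [CommRing B] [IsLocalRing B] [Group Γ] [MulSemiringAction Γ B]
    {n : ℕ} {σ : Γ} : σ ∈ ramGroup B Γ n ↔ ∀ x : B, σ • x - x ∈ maximalIdeal B ^ (n + 1) :=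
  Iff.rfl

/-- The data and hypotheses of `RamCountStatement`, bundled. -/
structure RCDatum : Type 1 where
  /-- the residue characteristic -/
  p : ℕ
  /-- the base ring (`P ∩ ℚ̄^{D_P}` in the application) -/
  A : Type
  /-- the ring of integers of the field cut out by `(ρ, c₁, c₂)` -/
  B : Type
  /-- the Galois group -/
  Γ : Type
  /-- the coefficient field -/
  k : Type
  /-- the representation space -/
  V : Type
  [commRingA : CommRing A]
  [isDomainA : IsDomain A]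
  [dvrA : IsDiscreteValuationRing A]
  [commRingB : CommRing B]
  [isDomainB : IsDomain B]
  [dvrB : IsDiscreteValuationRing B]
  [charZeroB : CharZero B]
  [algebraAB : Algebra A B]
  [finiteAB : Module.Finite A B]
  [faithfulAB : FaithfulSMul A B]
  [groupΓ : Group Γ]
  [finiteΓ : Finite Γ]
  [actionΓ : MulSemiringAction Γ B]
  [smulCommΓ : SMulCommClass Γ A B]
  [invariantΓ : Algebra.IsInvariant A B Γ]
  [faithfulΓ : FaithfulSMul Γ B]
  [fieldk : Field k]
  [finitek : Finite k]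
  [addCommGroupV : AddCommGroup V]
  [moduleV : Module k V]
  [finiteV : Module.Finite k V]
  hp : p.Prime
  hp2 : p ≠ 2
  hA : maximalIdeal A = Ideal.span {(p : A)}
  hκ : Nat.card (ResidueField A) = p
  /-- the absolute ramification index of `B` -/
  e : ℕ
  he : Ideal.span {(p : B)} = maximalIdeal B ^ e
  /-- the different bound of Theorem D -/
  hD : ∀ j : ℕ, ¬ p ∣ j → j < e → e < j * (p - 1) →
    differentIdeal A B ∣ Ideal.span {(p : B)} * maximalIdeal B ^ (j - 1)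
  hchar : CharP k p
  hV : Module.finrank k V = 2
  /-- the residual representation -/
  ρ : Γ →* Module.End k V
  hirr : ∀ U : Submodule k V, (∀ (σ : Γ), ∀ x ∈ U, ρ σ x ∈ U) → U = ⊥ ∨ U = ⊤
  hsplit : ∀ σ : Γ, ∃ α β : k, LinearMap.charpoly (ρ σ) = (X - C α) * (X - C β)
  /-- a primitive `p`-th root of unity -/
  ζ : B
  hζ : IsPrimitiveRoot ζ p
  hdet : ∀ (σ : Γ) (a : ℕ), σ • ζ = ζ ^ a → LinearMap.det (ρ σ) = (a : k)
  /-- the first cocycle -/
  c₁ : Γ → Module.End k V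
  /-- the second cocycle -/
  c₂ : Γ → Module.End k V
  hc₁ : ∀ σ τ, c₁ (σ * τ) = c₁ σ + ρ σ * c₁ τ * ρ σ⁻¹
  hc₂ : ∀ σ τ, c₂ (σ * τ) = c₂ σ + ρ σ * c₂ τ * ρ σ⁻¹
  htr₁ : ∀ σ, LinearMap.trace k V (c₁ σ) = 0
  htr₂ : ∀ σ, LinearMap.trace k V (c₂ σ) = 0
  hfaith : ∀ σ, ρ σ = 1 → c₁ σ = 0 → c₂ σ = 0 → σ = 1

namespace RCDatum

attribute [instance] commRingA isDomainA dvrA commRingB isDomainB dvrB charZeroB algebraAB
  finiteAB faithfulAB groupΓ finiteΓ actionΓ smulCommΓ invariantΓ faithfulΓ fieldk finitek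
  addCommGroupV moduleV finiteV

/-- The conclusion of `RamCountStatement`: `c₁, c₂` are dependent modulo coboundaries. -/
def Concl (d : RCDatum) : Prop :=
  ∃ a₁ a₂ : d.k, (a₁ ≠ 0 ∨ a₂ ≠ 0) ∧ ∃ m : Module.End d.k d.V,
    ∀ σ, a₁ • d.c₁ σ + a₂ • d.c₂ σ = d.ρ σ * m * d.ρ σ⁻¹ - m

/-- `c₁, c₂` restricted to `W = ker ρ` are linearly dependent. -/
def DepOnKer (d : RCDatum) : Prop :=
  ∃ a₁ a₂ : d.k, (a₁ ≠ 0 ∨ a₂ ≠ 0) ∧ ∀ σ, d.ρ σ = 1 → a₁ • d.c₁ σ + a₂ • d.c₂ σ = 0

/-- `W = ker ρ` is the wild inertia group `Γ₁`. -/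
def KerEqWild (d : RCDatum) : Prop :=
  ∀ σ : d.Γ, d.ρ σ = 1 ↔ σ ∈ ramGroup d.B d.Γ 1

/-- The wild inertia group has a single break `n ≥ 1`; if it is nontrivial then `n = p - 1` and
the tame ramification index is `p² - 1`. -/
def SingleBreak (d : RCDatum) : Prop :=
  ∃ n : ℕ, 1 ≤ n ∧ ramGroup d.B d.Γ n = ramGroup d.B d.Γ 1 ∧ ramGroup d.B d.Γ (n + 1) = ⊥ ∧
    (ramGroup d.B d.Γ 1 ≠ ⊥ → n = d.p - 1 ∧
      Nat.card (ramGroup d.B d.Γ 0) = (d.p ^ 2 - 1) * Nat.card (ramGroup d.B d.Γ 1))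

end RCDatum

/-- (SS) the image of `ρ` has order prime to `p`. -/
def RCTameStatement : Prop :=
  ∀ d : RCDatum, ¬ d.p ∣ d.ρ.ker.index

/-- (IR) inflation–restriction: for any finite group `Γ`, any representation `ρ` on a vector space
over a field of characteristic `p` whose image has order prime to `p`, a cocycle for `Ad ρ`
vanishing on `ker ρ` is a coboundary. -/
def RCInflStatement : Prop :=
  ∀ (p : ℕ) [Fact p.Prime] (Γ : Type) [Group Γ] [Finite Γ] (k : Type) [Field k] [CharP k p]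
    (V : Type) [AddCommGroup V] [Module k V] (ρ : Γ →* Module.End k V),
    ¬ p ∣ ρ.ker.index →
    ∀ c : Γ → Module.End k V, (∀ σ τ, c (σ * τ) = c σ + ρ σ * c τ * ρ σ⁻¹) →
      (∀ σ, ρ σ = 1 → c σ = 0) →
      ∃ m : Module.End k V, ∀ σ, c σ = ρ σ * m * ρ σ⁻¹ - m

/-- (C1) `ker ρ` is the wild inertia group. -/
def RCWildStatement : Prop :=
  ∀ d : RCDatum, ¬ d.p ∣ d.ρ.ker.index → d.KerEqWild

/-- (C2 + C3) the wild inertia group has a single break. -/
def RCBreakStatement : Prop :=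
  ∀ d : RCDatum, ¬ d.p ∣ d.ρ.ker.index → d.KerEqWild → d.SingleBreak

/-- (C4) if `ker ρ = Γ₁` has a single break, then `c₁, c₂` are dependent on `ker ρ`. -/
def RCLineStatement : Prop :=
  ∀ d : RCDatum, ¬ d.p ∣ d.ρ.ker.index → d.KerEqWild → d.SingleBreak → d.DepOnKer

end Fermat.Agent.S56.FL

end
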