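import Fermat.Agent.S56.FL.RamLemSpec

/-!
# Row S56 — W-FLAT-SS, piece RAMCOUNT: FROZEN statements `RLCyc` and `RCShape`
(sub-architect helper426).  Pure algebra, Mathlib only.  Nothing unproved in this file.

These are the last two inputs of the bridge `FL/CntBridge.lean`
(`RCDepStatement ⇐ H846.FLCntStatement + H846.FLCycStatement + RL* + RLCyc + RCShape`).

* `RCDatum.TameData d τ₀ φ μ` : the conclusion of `RLTameStatement` for given `τ₀ φ μ`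
  (tame generator, Frobenius lift, tame character value `μ = θ₀(τ₀)`).
* `RLCycStatement` : the mod-`p` cyclotomic character has exact order `p - 1` on tame inertia:
  if `τ₀ ^ j • ζ = ζ ^ a` then `a ≡ 1 [MOD p] ↔ p - 1 ∣ j`.
  (Proof: `v_B(ζ - 1) = e / (p - 1) =: s`, `σ(ζ - 1)/(ζ - 1) ≡ a`, and `≡ θ₀(σ) ^ s` for `σ ∈ Γ₀`;
  `e = |Γ₀| = e₀ p ^ r` with `e₀ = ord μ`, so `μ ^ s` has exact order `p - 1`.)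
* `RCShapeStatement` : the shape of `ρ` and of `Ad ρ` on trace-zero endomorphisms
  (the supersingular structure theorem, linear algebra + arithmetic of the orders):
  in the eigenbasis `v₁, v₂` of `ρ τ₀ = diag(χ, χ')`, with `ρ φ` antidiagonal,
  `ℓ₁ z = z₁₁`, `ℓp z = z₁₂`, `ℓm z = z₂₁`, `ψ₀ = χ / χ'`, `m = ord ψ₀`.
  (`χ' = χ ^ p`, `χ = χ' ^ p`, `det ρ τ₀ = χ ^ (p + 1)` of exact order `p - 1` by `hcyc`, so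
  `ord χ = (p - 1) m`, `m ∣ p + 1`, `(p + 1) / m` odd.)
-/

set_option autoImplicit false

open Polynomial IsLocalRing

noncomputable section

namespace Fermat.Agent.S56.FL

namespace RCDatum

/-- The conclusion of `RLTameStatement` for given `τ₀ φ μ`. -/
def TameData (d : RCDatum) (τ₀ φ : d.Γ) (μ : ResidueField d.B) : Prop :=
  τ₀ ∈ ramGroup d.B d.Γ 0 ∧
    (∀ σ ∈ ramGroup d.B d.Γ 0, ∃ j : ℕ, σ * (τ₀ ^ j)⁻¹ ∈ ramGroup d.B d.Γ 1) ∧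
    (∀ j : ℕ, τ₀ ^ j ∈ ramGroup d.B d.Γ 1 ↔ μ ^ j = 1) ∧
    (∀ ϖ : d.B, Irreducible ϖ → ∀ u : d.B, τ₀ • ϖ = u * ϖ → residue d.B u = μ) ∧
    (∀ x : d.B, residue d.B (φ • x) = residue d.B x ^ d.p) ∧
    (∀ σ : d.Γ, ∃ j : ℕ, σ * (φ ^ j)⁻¹ ∈ ramGroup d.B d.Γ 0) ∧
    φ * τ₀ * φ⁻¹ * (τ₀ ^ d.p)⁻¹ ∈ ramGroup d.B d.Γ 1

end RCDatum

/-- `RLTameStatement` produces `TameData`. -/
theorem exists_tameData (h : RLTameStatement) (d : RCDatum) :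
    ∃ (τ₀ φ : d.Γ) (μ : ResidueField d.B), d.TameData τ₀ φ μ := by
  obtain ⟨τ₀, hτ₀, φ, μ, h1, h2, h3, h4, h5, h6⟩ := h d
  exact ⟨τ₀, φ, μ, hτ₀, h1, h2, h3, h4, h5, h6⟩

/-- (RL-CYC) the mod-`p` cyclotomic character has exact order `p - 1` on tame inertia. -/
def RLCycStatement : Prop :=
  ∀ d : RCDatum, IsPGroup d.p (ramGroup d.B d.Γ 1) →
    d.e = Nat.card (ramGroup d.B d.Γ 0) →
    ∀ (τ₀ φ : d.Γ) (μ : ResidueField d.B), d.TameData τ₀ φ μ →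
      ∀ j a : ℕ, τ₀ ^ j • d.ζ = d.ζ ^ a → (a ≡ 1 [MOD d.p] ↔ d.p - 1 ∣ j)

/-- (SHAPE) the supersingular structure theorem for `ρ` and `Ad ρ`. -/
def RCShapeStatement : Prop :=
  ∀ d : RCDatum, ¬ d.p ∣ d.ρ.ker.index →
    IsPGroup d.p (ramGroup d.B d.Γ 1) →
    ∀ (τ₀ φ : d.Γ) (μ : ResidueField d.B), d.TameData τ₀ φ μ →
      (∀ j a : ℕ, τ₀ ^ j • d.ζ = d.ζ ^ a → (a ≡ 1 [MOD d.p] ↔ d.p - 1 ∣ j)) →
      ∃ (ℓ₁ ℓp ℓm : Module.End d.k d.V →ₗ[d.k] d.k) (ψ₀ a b : d.k) (m : ℕ),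
        (∀ z : Module.End d.k d.V, LinearMap.trace d.k d.V z = 0 →
          ℓ₁ z = 0 → ℓp z = 0 → ℓm z = 0 → z = 0) ∧
        (∀ z, ℓ₁ (d.ρ τ₀ * z * d.ρ τ₀⁻¹) = ℓ₁ z) ∧
        (∀ z, ℓp (d.ρ τ₀ * z * d.ρ τ₀⁻¹) = ψ₀ * ℓp z) ∧
        (∀ z, ℓm (d.ρ τ₀ * z * d.ρ τ₀⁻¹) = ψ₀⁻¹ * ℓm z) ∧
        (∀ z, LinearMap.trace d.k d.V z = 0 → ℓ₁ (d.ρ φ * z * d.ρ φ⁻¹) = - ℓ₁ z) ∧
        (∀ z, ℓp (d.ρ φ * z * d.ρ φ⁻¹) = a * ℓm z) ∧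
        (∀ z, ℓm (d.ρ φ * z * d.ρ φ⁻¹) = b * ℓp z) ∧
        m ∣ d.p + 1 ∧ Odd ((d.p + 1) / m) ∧
        (∀ j : ℕ, d.ρ (τ₀ ^ j) = 1 ↔ (d.p - 1) * m ∣ j) ∧
        (∀ j : ℕ, ψ₀ ^ j = 1 ↔ m ∣ j) ∧
        Nat.card (ramGroup d.B d.Γ 0) =
          (d.p - 1) * m * Nat.card (d.ρ.ker ⊓ ramGroup d.B d.Γ 0 : Subgroup d.Γ)

end Fermat.Agent.S56.FL

end
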